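/-
S55 — the archimedean place contributes nothing when `2` is invertible (helper17).

`extArithIndex S = Unit ⊕ S`; the `Sum.inl` component is the group generated by complex
conjugation (`archimedeanDecomposition`, of order dividing `2`).  For coefficients in which `2` is
invertible (e.g. `ZMod p`, `p` odd) its `H¹` and its level-constant `H²` vanish, so membership in
`sha₁` / `sha₂` only has to be tested at the finite places `q ∈ S`.

Only Mathlib + Prelude objects are used.
-/
import Fermat.Prelude.Def_GroupCohomology_ContinuousUnramified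

set_option autoImplicit false

open CategoryTheory groupCohomology ExtCitation

namespace Fermat.Agent.S55.Archimedean

section General

variable {k : Type} [CommRing k] {H : Type} [Group H]

/-- In a group all of whose elements are `1` or an involution `c`, with `2` invertible in the
coefficient ring, every `1`-cocycle is a coboundary. -/
theorem mem_coboundaries₁_of_two (B : Rep k H) (h2 : IsUnit (2 : k)) (c : H) (hc : c * c = 1)
    (hH : ∀ h : H, h = 1 ∨ h = c) (f : H → B) (hf : f ∈ cocycles₁ B) :
    f ∈ coboundaries₁ B := by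
  obtain ⟨u, hu⟩ := h2
  have hcoc := (mem_cocycles₁_iff f).1 hf
  have h1 : f 1 = 0 := cocycles₁_map_one ⟨f, hf⟩
  have hcc : B.ρ c (f c) + f c = 0 := by
    have := hcoc c c
    rw [hc, h1] at this
    exact this.symm
  have huinv : (↑u⁻¹ : k) * 2 = 1 := by rw [← hu]; exact u.inv_mul
  refine ⟨-((↑u⁻¹ : k) • f c), funext fun g => ?_⟩
  rw [d₀₁_hom_apply]
  rcases hH g with rfl | rfl
  · rw [h1]; simp
  · have e1 : B.ρ g (f g) = -f g := eq_neg_of_add_eq_zero_left hcc
    rw [map_neg, map_smul, e1, smul_neg, neg_neg, sub_neg_eq_add, ← add_smul, ← mul_two, huinv,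
      one_smul]

theorem subsingleton_H1_of_two (B : Rep k H) (h2 : IsUnit (2 : k)) (c : H) (hc : c * c = 1)
    (hH : ∀ h : H, h = 1 ∨ h = c) : Subsingleton (H1 B) := by
  refine ⟨fun x y => ?_⟩
  have key : ∀ z : H1 B, z = 0 := fun z =>
    H1_induction_on z fun f =>
      (H1π_eq_zero_iff f).2 (mem_coboundaries₁_of_two B h2 c hc hH f f.2)
  rw [key x, key y]

variable (r : H →* (AlgebraicClosure ℚ ≃ₐ[ℚ] AlgebraicClosure ℚ))

/-- Same group: every level-constant `2`-cocycle is the coboundary of a level-constant
`1`-cochain (average over the group). -/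
theorem mem_levelCoboundaries₂_of_two (B : Rep k H) (h2 : IsUnit (2 : k)) (c : H)
    (hc : c * c = 1) (hH : ∀ h : H, h = 1 ∨ h = c) (f : H × H → B)
    (hf : f ∈ levelCocycles₂ r B) : f ∈ levelCoboundaries₂ r B := by
  obtain ⟨u, hu⟩ := h2
  have huinv : (↑u⁻¹ : k) * 2 = 1 := by rw [← hu]; exact u.inv_mul
  obtain ⟨hcoc, F, hF, hlc⟩ := hf
  have hcoc := (mem_cocycles₂_iff f).1 hcoc
  rw [mem_levelCoboundaries₂_iff]
  refine ⟨fun g => (↑u⁻¹ : k) • (f (g, 1) + f (g, c)), ⟨F, hF, fun g s hs => ?_⟩,
    funext fun ⟨g, h⟩ => ?_⟩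
  · have e1 := hlc g 1 s 1 hs (by rw [map_one]; exact one_mem _)
    have e2 := hlc g c s 1 hs (by rw [map_one]; exact one_mem _)
    rw [mul_one] at e1 e2
    simp only [e1, e2]
  · rw [d₁₂_hom_apply]
    simp only [map_smul, map_add]
    have k1 := hcoc g h 1
    have kc := hcoc g h c
    rw [mul_one] at k1
    -- `{h, h c} = {1, c}`
    have hperm : f (g, h) + f (g, h * c) = f (g, 1) + f (g, c) := by
      rcases hH h with rfl | rfl
      · rw [one_mul]
      · rw [hc, add_comm]
    have e : B.ρ g (f (h, 1)) + B.ρ g (f (h, c)) - (f (g * h, 1) + f (g * h, c))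
        + (f (g, 1) + f (g, c)) = (2 : k) • f (g, h) := by
      have a1 : B.ρ g (f (h, 1)) = f (g * h, 1) + f (g, h) - f (g, h) := by
        rw [k1]; abel
      have a2 : B.ρ g (f (h, c)) = f (g * h, c) + f (g, h) - f (g, h * c) := by
        rw [kc]; abel
      rw [a1, a2, two_smul, ← hperm]
      abel
    rw [← smul_sub, ← smul_add, e, smul_smul, huinv, one_smul]

theorem subsingleton_continuousH2_of_two (B : Rep k H) (h2 : IsUnit (2 : k)) (c : H)
    (hc : c * c = 1) (hH : ∀ h : H, h = 1 ∨ h = c) : Subsingleton (continuousH2 r B) := by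
  refine ⟨fun x y => ?_⟩
  have key : ∀ z : continuousH2 r B, z = 0 := fun z => by
    obtain ⟨f, rfl⟩ := Submodule.Quotient.mk_surjective _ z
    exact (continuousH2π_eq_zero_iff r B f).2
      (mem_levelCoboundaries₂_of_two r B h2 c hc hH f f.2)
  rw [key x, key y]

end General

/-! ### The archimedean decomposition group -/

theorem archimedeanGen_mul_self : archimedeanGen * archimedeanGen = 1 :=
  Subtype.ext complexConjugation_mul_self

theorem eq_one_or_eq_archimedeanGen (h : archimedeanDecomposition) :
    h = 1 ∨ h = archimedeanGen := by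
  obtain ⟨g, n, rfl⟩ := h
  rcases Int.even_or_odd n with ⟨m, rfl⟩ | ⟨m, rfl⟩
  · left
    apply Subtype.ext
    show complexConjugation ^ (m + m) = 1
    rw [← two_mul, zpow_mul, zpow_ofNat, complexConjugation_sq, one_zpow]
  · right
    apply Subtype.ext
    show complexConjugation ^ (2 * m + 1) = complexConjugation
    rw [zpow_add, zpow_mul, zpow_ofNat, complexConjugation_sq, one_zpow, one_mul, zpow_one]

variable {k : Type} [CommRing k]

/-- `H¹` of the archimedean decomposition group vanishes when `2` is invertible. -/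
theorem subsingleton_H1_archimedean (h2 : IsUnit (2 : k))
    (A : Rep k (AlgebraicClosure ℚ ≃ₐ[ℚ] AlgebraicClosure ℚ)) :
    Subsingleton (H1 (Rep.res archimedeanLoc A)) :=
  subsingleton_H1_of_two _ h2 archimedeanGen archimedeanGen_mul_self eq_one_or_eq_archimedeanGen

/-- The level-constant `H²` of the archimedean decomposition group vanishes when `2` is
invertible. -/
theorem subsingleton_continuousH2_archimedean (h2 : IsUnit (2 : k))
    (A : Rep k (AlgebraicClosure ℚ ≃ₐ[ℚ] AlgebraicClosure ℚ)) :
    Subsingleton (continuousH2 archimedeanLoc (Rep.res archimedeanLoc A)) :=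
  subsingleton_continuousH2_of_two _ _ h2 archimedeanGen archimedeanGen_mul_self
    eq_one_or_eq_archimedeanGen

theorem isUnit_two_zmod {p : ℕ} [Fact p.Prime] (hp2 : p ≠ 2) : IsUnit (2 : ZMod p) := by
  have h : ((2 : ℕ) : ZMod p) ≠ 0 := by
    intro h0
    rw [ZMod.natCast_eq_zero_iff] at h0
    exact hp2 ((Nat.prime_dvd_prime_iff_eq Fact.out Nat.prime_two).1 h0)
  exact (isUnit_iff_ne_zero.2 h).map (RingHom.id _) |> fun h' => by simpa using h'

/-! ### Consequences for `sha₁`, `sha₂` -/

section Sha

variable (S : Finset Nat.Primes)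

/-- `sha₂` only sees the finite places in `S` when `2` is invertible. -/
theorem mem_sha₂_iff (h2 : IsUnit (2 : k))
    (M : Rep k (AlgebraicClosure ℚ ≃ₐ[ℚ] AlgebraicClosure ℚ)) (x : continuousH2S S M) :
    x ∈ sha₂ S M ↔ ∀ q : ↥S, locRes₂S S M (primeLocalToGlobal q.1) x = 0 := by
  rw [sha₂, LinearMap.mem_ker]
  constructor
  · intro h q
    exact congrFun h (Sum.inr q)
  · intro h
    funext v
    rcases v with v | q
    · have := subsingleton_continuousH2_archimedean h2 M
      exact Subsingleton.elim (α := continuousH2 archimedeanLoc (Rep.res archimedeanLoc M)) _ _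
    · exact h q

/-- `sha₁` only sees the finite places in `S` when `2` is invertible. -/
theorem mem_sha₁_iff {K : Type} [Field K] (h2 : IsUnit (2 : K))
    (A : Rep K (AlgebraicClosure ℚ ≃ₐ[ℚ] AlgebraicClosure ℚ)) (x : H1 A) :
    x ∈ sha₁ S A ↔ x ∈ continuousH1S S A ∧
      ∀ q : ↥S, (locRes (extArithLoc S) A (Sum.inr q)).hom x = 0 := by
  rw [sha₁, Submodule.mem_inf, LinearMap.mem_ker]
  refine and_congr_right fun _ => ?_
  constructor
  · intro h q
    exact congrFun h (Sum.inr q)
  · intro h
    funext v
    rcases v with v | q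
    · have := subsingleton_H1_archimedean h2 A
      exact Subsingleton.elim (α := H1 (Rep.res archimedeanLoc A)) _ _
    · exact h q

end Sha

end Fermat.Agent.S55.Archimedean
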