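/-
S55 / local class formation (helper59): successive approximation (Serre, Local Fields XII.3
Lemma 3 / Cassels–Fröhlich VI.1.4), in the elementary form needed for cyclic groups.

`X` an abelian group written additively, `f g : X →+ X` with `f ∘ g = 0` (think `f = D = σ - 1`,
`g = N` the norm, or the other way round), `V : ℕ → AddSubgroup X` a decreasing, `g`-stable,
separated and complete filtration.  If on every layer an element of `V i` killed by `f` is, modulo
`V (i+1)`, of the form `g y` with `y ∈ V i`, then every element of `V 0` killed by `f` is of the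
form `g y` with `y ∈ V 0`.

Consequences in the `qa` language of `S14/HerbrandPrime` (`qa f g A = [A ∩ ker f : g A]`):
`qa_eq_one_of_filtration`.
-/
import Mathlib
import Fermat.Agent.S14.HerbrandPrime

set_option autoImplicit false

namespace Fermat.Agent.S55.CohTrivialApprox

open Fermat.Agent.S14.HerbrandPrime

variable {X : Type*} [AddCommGroup X]

/-- **Successive approximation.** -/
theorem exists_eq_map_of_filtration (f g : X →+ X) (hfg : ∀ x, f (g x) = 0)
    (V : ℕ → AddSubgroup X)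
    (hgV : ∀ i, (V i).map g ≤ V i)
    (hsep : ∀ x, (∀ i, x ∈ V i) → x = 0)
    (hcomplete : ∀ a : ℕ → X, (∀ i, a i ∈ V i) →
      ∃ s ∈ V 0, ∀ i, s - ∑ j ∈ Finset.range i, a j ∈ V i)
    (hstep : ∀ i, ∀ x ∈ V i, f x = 0 → ∃ y ∈ V i, x - g y ∈ V (i + 1))
    {x : X} (hx : x ∈ V 0) (hfx : f x = 0) : ∃ y ∈ V 0, g y = x := by
  classical
  have step : ∀ (i : ℕ) (z : X), ∃ y, z ∈ V i → f z = 0 → (y ∈ V i ∧ z - g y ∈ V (i + 1)) := by
    intro i z
    by_cases h : z ∈ V i ∧ f z = 0
    · obtain ⟨y, hy, hzy⟩ := hstep i z h.1 h.2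
      exact ⟨y, fun _ _ => ⟨hy, hzy⟩⟩
    · exact ⟨0, fun h1 h2 => absurd ⟨h1, h2⟩ h⟩
  choose Y hY using step
  let xs : ℕ → X := fun i => Nat.rec x (fun i xi => xi - g (Y i xi)) i
  have xs_zero : xs 0 = x := rfl
  have xs_succ : ∀ i, xs (i + 1) = xs i - g (Y i (xs i)) := fun i => rfl
  have hxs : ∀ i, xs i ∈ V i ∧ f (xs i) = 0 := by
    intro i
    induction i with
    | zero => exact ⟨hx, hfx⟩
    | succ i ih =>
      refine ⟨?_, ?_⟩
      · rw [xs_succ]
        exact (hY i (xs i) ih.1 ih.2).2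
      · rw [xs_succ, map_sub, ih.2, hfg, sub_zero]
  set a : ℕ → X := fun i => Y i (xs i) with ha
  have haV : ∀ i, a i ∈ V i := fun i => (hY i (xs i) (hxs i).1 (hxs i).2).1
  have hsum : ∀ i, xs i = x - g (∑ j ∈ Finset.range i, a j) := by
    intro i
    induction i with
    | zero => simp [xs_zero]
    | succ i ih =>
      have h1 : xs (i + 1) = xs i - g (a i) := rfl
      rw [h1, ih, Finset.sum_range_succ, map_add]
      abel
  obtain ⟨s, hs0, hs⟩ := hcomplete a haV
  refine ⟨s, hs0, ?_⟩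
  have : x - g s = 0 := by
    apply hsep
    intro i
    have h1 : x - g s = xs i - g (s - ∑ j ∈ Finset.range i, a j) := by
      rw [hsum i, map_sub]
      abel
    rw [h1]
    exact (V i).sub_mem (hxs i).1 (hgV i ⟨_, hs i, rfl⟩)
  exact (sub_eq_zero.mp this).symm

/-- The `qa`-form: `[V 0 ∩ ker f : g (V 0)] = 1`. -/
theorem qa_eq_one_of_filtration (f g : X →+ X) (hfg : ∀ x, f (g x) = 0)
    (V : ℕ → AddSubgroup X)
    (hgV : ∀ i, (V i).map g ≤ V i)
    (hsep : ∀ x, (∀ i, x ∈ V i) → x = 0)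
    (hcomplete : ∀ a : ℕ → X, (∀ i, a i ∈ V i) →
      ∃ s ∈ V 0, ∀ i, s - ∑ j ∈ Finset.range i, a j ∈ V i)
    (hstep : ∀ i, ∀ x ∈ V i, f x = 0 → ∃ y ∈ V i, x - g y ∈ V (i + 1)) :
    qa f g (V 0) = 1 := by
  unfold qa
  rw [AddSubgroup.relIndex_eq_one]
  rintro x ⟨hx, hfx⟩
  obtain ⟨y, hy, rfl⟩ :=
    exists_eq_map_of_filtration f g hfg V hgV hsep hcomplete hstep hx hfx
  exact ⟨y, hy, rfl⟩

end Fermat.Agent.S55.CohTrivialApprox
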