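/-
S55 / Bridge.GaloisLevel (helper38).  Global-side bridge facts on the Prelude objects
(`IntermediateField.IsUnramifiedOutside`, `IsLevelConstantS₁/S₂`), interface-independent.

* `inertiaSubgroupIn_smul`      : inertia of `g • A` is the `g`-conjugate of the inertia of `A`;
* `IsUnramifiedOutside.map`     : `IsUnramifiedOutside` is stable under `F ↦ g(F)`;
* `IsUnramifiedOutside.normalClosure` : ... and under normal closure;
* `isLevelConstantS₁_iff_galois`, `isLevelConstantS₂_iff_galois` : levels may be taken Galois.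
-/
import Mathlib
import Fermat.Prelude.Def_GroupCohomology_ContinuousUnramified
import Fermat.Agent.Lib.InertiaRestrict

set_option autoImplicit false
set_option linter.unusedSectionVars false
set_option linter.style.haveILetI false
open scoped Pointwise

namespace Fermat.Agent.S55.GaloisLevel

open Fermat.Agent.Lib.InertiaRestrict groupCohomology

section Conj

variable {K L : Type*} [Field K] [Field L] [Algebra K L]

/-- membership in the decomposition group of a translate. -/
theorem mem_decompositionSubgroup_smul_iff (g σ : L ≃ₐ[K] L) (A : ValuationSubring L) :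
    σ ∈ (g • A).decompositionSubgroup K ↔ g⁻¹ * σ * g ∈ A.decompositionSubgroup K := by
  change σ ∈ MulAction.stabilizer _ _ ↔ _ ∈ MulAction.stabilizer _ _
  rw [MulAction.mem_stabilizer_iff, MulAction.mem_stabilizer_iff, mul_smul, mul_smul,
    inv_smul_eq_iff]

/-- membership in the inertia group of a translate. -/
theorem mem_inertiaSubgroupIn_smul_iff (g σ : L ≃ₐ[K] L) (A : ValuationSubring L) :
    σ ∈ (g • A).inertiaSubgroupIn K ↔ g⁻¹ * σ * g ∈ A.inertiaSubgroupIn K := by
  constructor
  · intro h
    have hd : σ ∈ (g • A).decompositionSubgroup K := by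
      obtain ⟨τ, _, rfl⟩ := h
      exact τ.2
    refine mem_inertiaSubgroupIn_of_forall ((mem_decompositionSubgroup_smul_iff g σ A).1 hd) ?_
    intro w hw
    have hgw : g w ∈ g • A := ValuationSubring.smul_mem_pointwise_smul g w A hw
    have := apply_sub_mem_nonunits h hgw
    rw [mem_nonunits_smul_iff] at this
    simpa [AlgEquiv.smul_def, AlgEquiv.mul_apply, map_sub] using this
  · intro h
    have hd : g⁻¹ * σ * g ∈ A.decompositionSubgroup K := by
      obtain ⟨τ, _, hτ⟩ := h
      rw [← hτ]
      exact τ.2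
    refine mem_inertiaSubgroupIn_of_forall ((mem_decompositionSubgroup_smul_iff g σ A).2 hd) ?_
    intro w hw
    rw [ValuationSubring.mem_pointwise_smul_iff_inv_smul_mem] at hw
    have := apply_sub_mem_nonunits h hw
    rw [mem_nonunits_smul_iff]
    simpa [AlgEquiv.smul_def, AlgEquiv.mul_apply, map_sub] using this

theorem liesOverPrime_smul_iff (g : L ≃ₐ[K] L) (A : ValuationSubring L) (q : ℕ) :
    (g • A).LiesOverPrime q ↔ A.LiesOverPrime q := by
  unfold ValuationSubring.LiesOverPrime
  rw [mem_nonunits_smul_iff]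
  simp [AlgEquiv.smul_def]

theorem mem_fixingSubgroup_map_iff (g σ : L ≃ₐ[K] L) (F : IntermediateField K L) :
    σ ∈ (F.map (g : L →ₐ[K] L)).fixingSubgroup ↔ g⁻¹ * σ * g ∈ F.fixingSubgroup := by
  rw [IntermediateField.mem_fixingSubgroup_iff, IntermediateField.mem_fixingSubgroup_iff]
  constructor
  · intro h x hx
    have := h (g x) ((IntermediateField.mem_map F).2 ⟨x, hx, rfl⟩)
    simp only [AlgEquiv.mul_apply]
    rw [this]
    simp
  · rintro h _ ⟨x, hx, rfl⟩
    have := h x hx
    simp only [AlgEquiv.mul_apply] at this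
    have h2 := congrArg g this
    simpa using h2

end Conj

section Unram

local notation "Qbar" => AlgebraicClosure ℚ
local notation "GQ" => (AlgebraicClosure ℚ ≃ₐ[ℚ] AlgebraicClosure ℚ)

variable {S : Finset Nat.Primes}

local instance isAlgebraicQbar_gl : Algebra.IsAlgebraic ℚ (AlgebraicClosure ℚ) :=
  AlgebraicClosure.isAlgebraic ℚ
local instance isAlgClosureQbar_gl : IsAlgClosure ℚ (AlgebraicClosure ℚ) :=
  ⟨inferInstance, inferInstance⟩
local instance normalQbar_gl : Normal ℚ (AlgebraicClosure ℚ) :=
  IsAlgClosure.normal ℚ (AlgebraicClosure ℚ)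
local instance isGaloisQbar_gl : IsGalois ℚ (AlgebraicClosure ℚ) := ⟨⟩

/-- `IsUnramifiedOutside` is stable under Galois conjugation of the field. -/
theorem IsUnramifiedOutside.map {F : IntermediateField ℚ Qbar} (hF : F.IsUnramifiedOutside S)
    (g : GQ) : (F.map (g : Qbar →ₐ[ℚ] Qbar)).IsUnramifiedOutside S := by
  have hfd := hF.1
  refine ⟨?_, fun q hq A hA σ hσ => ?_⟩
  · exact LinearEquiv.finiteDimensional (F.equivMap (g : Qbar →ₐ[ℚ] Qbar)).toLinearEquiv
  · rw [mem_fixingSubgroup_map_iff]
    have hA' : (g⁻¹ • A).LiesOverPrime (q : ℕ) := (liesOverPrime_smul_iff g⁻¹ A q).2 hA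
    refine hF.2 q hq (g⁻¹ • A) hA' ?_
    rw [mem_inertiaSubgroupIn_smul_iff]
    have e : g⁻¹⁻¹ * (g⁻¹ * σ * g) * g⁻¹ = σ := by group
    rw [e]
    exact hσ

/-- The Galois closure of `F` inside `Qbar`, as the compositum of all conjugates. -/
noncomputable def galClosure (F : IntermediateField ℚ Qbar) : IntermediateField ℚ Qbar :=
  ⨆ g : GQ, F.map (g : Qbar →ₐ[ℚ] Qbar)

theorem le_galClosure (F : IntermediateField ℚ Qbar) : F ≤ galClosure F := by
  refine le_trans ?_ (le_iSup (fun g : GQ => F.map (g : Qbar →ₐ[ℚ] Qbar)) 1)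
  intro x hx
  exact (IntermediateField.mem_map F).2 ⟨x, hx, rfl⟩

theorem galClosure_eq_normalClosure (F : IntermediateField ℚ Qbar) :
    galClosure F = IntermediateField.normalClosure ℚ F Qbar := by
  have h := IntermediateField.normalClosure_def'' (F := ℚ) (L := Qbar) F
  rw [galClosure]
  convert h.symm
  exact Subsingleton.elim _ _

theorem finiteDimensional_galClosure (F : IntermediateField ℚ Qbar) [FiniteDimensional ℚ F] :
    FiniteDimensional ℚ (galClosure F) := by
  rw [galClosure_eq_normalClosure]
  infer_instance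

/-- Normality of the Galois closure, for an arbitrary `Algebra ℚ` instance (they are all equal;
this avoids the `DivisionRing.toRatAlgebra` / `IntermediateField.algebra'` mismatch). -/
theorem normal_galClosure (F : IntermediateField ℚ Qbar) (inst : Algebra ℚ (galClosure F)) :
    @Normal ℚ (galClosure F) _ _ inst := by
  obtain rfl : inst = (galClosure F).algebra' := Subsingleton.elim _ _
  have h := IntermediateField.normalClosure_def'' (F := ℚ) (L := Qbar) F
  rw [galClosure, ← h]
  exact normalClosure.normal ℚ F Qbar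

theorem isGalois_galClosure (F : IntermediateField ℚ Qbar) (inst : Algebra ℚ (galClosure F)) :
    @IsGalois ℚ _ (galClosure F) _ inst := by
  haveI := normal_galClosure F inst
  exact ⟨⟩

theorem fixingSubgroup_galClosure_normal (F : IntermediateField ℚ Qbar) :
    (galClosure F).fixingSubgroup.Normal := by
  haveI := isGalois_galClosure F (galClosure F).algebra'
  exact IsGalois.fixingSubgroup_normal_of_isGalois (galClosure F)

/-- `IsUnramifiedOutside` is stable under Galois closure. -/
theorem IsUnramifiedOutside.galClosure {F : IntermediateField ℚ Qbar}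
    (hF : F.IsUnramifiedOutside S) : (galClosure F).IsUnramifiedOutside S := by
  have hfd := hF.1
  refine ⟨finiteDimensional_galClosure F, fun q hq A hA => ?_⟩
  rw [← IntermediateField.le_iff_le, GaloisLevel.galClosure]
  refine iSup_le fun g => ?_
  rw [IntermediateField.le_iff_le]
  exact (IsUnramifiedOutside.map hF g).2 q hq A hA

/-- Every field unramified outside `S` sits inside a finite Galois one. -/
theorem exists_galois_ge {F : IntermediateField ℚ Qbar} (hF : F.IsUnramifiedOutside S) :
    ∃ F' : IntermediateField ℚ Qbar, F ≤ F' ∧ F'.IsUnramifiedOutside S ∧ IsGalois ℚ F' ∧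
      F'.fixingSubgroup.Normal ∧ F'.fixingSubgroup ≤ F.fixingSubgroup :=
  ⟨galClosure F, le_galClosure F, IsUnramifiedOutside.galClosure hF, isGalois_galClosure F _,
    fixingSubgroup_galClosure_normal F,
    IntermediateField.fixingSubgroup_antitone (le_galClosure F)⟩

/-- A level for an `S`-level-constant function can be taken Galois (so invariance is two-sided). -/
theorem isLevelConstantS₁_iff_galois {X : Type*} (f : GQ → X) :
    IsLevelConstantS₁ S f ↔ ∃ F : IntermediateField ℚ Qbar, F.IsUnramifiedOutside S ∧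
      IsGalois ℚ F ∧ F.fixingSubgroup.Normal ∧
      (∀ g s, s ∈ F.fixingSubgroup → f (g * s) = f g) ∧
      (∀ g s, s ∈ F.fixingSubgroup → f (s * g) = f g) := by
  constructor
  · rintro ⟨F, hF, h⟩
    obtain ⟨F', _, hF', hgal, hnorm, hle⟩ := exists_galois_ge hF
    refine ⟨F', hF', hgal, hnorm, fun g s hs => h g s (hle hs), fun g s hs => ?_⟩
    have e : s * g = g * (g⁻¹ * s * g⁻¹⁻¹) := by group
    rw [e]
    exact h g _ (hle (hnorm.conj_mem s hs g⁻¹))
  · rintro ⟨F, hF, _, _, h, _⟩
    exact ⟨F, hF, h⟩

theorem isLevelConstantS₂_iff_galois {X : Type*} (f : GQ × GQ → X) :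
    IsLevelConstantS₂ S f ↔ ∃ F : IntermediateField ℚ Qbar, F.IsUnramifiedOutside S ∧
      IsGalois ℚ F ∧ F.fixingSubgroup.Normal ∧
      (∀ g g' s s', s ∈ F.fixingSubgroup → s' ∈ F.fixingSubgroup → f (g * s, g' * s') = f (g, g')) ∧
      (∀ g g' s s', s ∈ F.fixingSubgroup → s' ∈ F.fixingSubgroup →
        f (s * g, s' * g') = f (g, g')) := by
  constructor
  · rintro ⟨F, hF, h⟩
    obtain ⟨F', _, hF', hgal, hnorm, hle⟩ := exists_galois_ge hF
    refine ⟨F', hF', hgal, hnorm, fun g g' s s' hs hs' => h g g' s s' (hle hs) (hle hs'),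
      fun g g' s s' hs hs' => ?_⟩
    have e : s * g = g * (g⁻¹ * s * g⁻¹⁻¹) := by group
    have e' : s' * g' = g' * (g'⁻¹ * s' * g'⁻¹⁻¹) := by group
    rw [e, e']
    exact h g g' _ _ (hle (hnorm.conj_mem s hs g⁻¹)) (hle (hnorm.conj_mem s' hs' g'⁻¹))
  · rintro ⟨F, hF, _, _, h, _⟩
    exact ⟨F, hF, h⟩

/-- Finitely many `S`-level-constant functions have a common Galois level. -/
theorem exists_common_galois_level {ι : Type*} [Finite ι] {X : ι → Type*}
    (f : ∀ i, GQ → X i) (hf : ∀ i, IsLevelConstantS₁ S (f i)) :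
    ∃ F : IntermediateField ℚ Qbar, F.IsUnramifiedOutside S ∧ IsGalois ℚ F ∧
      F.fixingSubgroup.Normal ∧
      (∀ i g s, s ∈ F.fixingSubgroup → f i (g * s) = f i g) ∧
      (∀ i g s, s ∈ F.fixingSubgroup → f i (s * g) = f i g) := by
  classical
  choose F hF h using hf
  have hsup : (⨆ i, F i).IsUnramifiedOutside S := by
    haveI : ∀ i, FiniteDimensional ℚ (F i) := fun i => (hF i).1
    refine ⟨IntermediateField.finiteDimensional_iSup_of_finite, fun q hq A hA => ?_⟩
    rw [← IntermediateField.le_iff_le]
    refine iSup_le fun i => ?_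
    rw [IntermediateField.le_iff_le]
    exact (hF i).2 q hq A hA
  obtain ⟨F', hle', hF', hgal, hnorm, hle⟩ := exists_galois_ge hsup
  have hle_i : ∀ i, F'.fixingSubgroup ≤ (F i).fixingSubgroup := fun i =>
    hle.trans (IntermediateField.fixingSubgroup_antitone (le_iSup F i))
  refine ⟨F', hF', hgal, hnorm, fun i g s hs => h i g s (hle_i i hs), fun i g s hs => ?_⟩
  have e : s * g = g * (g⁻¹ * s * g⁻¹⁻¹) := by group
  rw [e]
  exact h i g _ (hle_i i (hnorm.conj_mem s hs g⁻¹))

/-- A subgroup containing the fixing subgroup of a finite subextension is open, hence closed, hence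
it is the fixing subgroup of its fixed field; the latter is contained in the finite subextension. -/
theorem fixingSubgroup_fixedField_of_le {F : IntermediateField ℚ Qbar} [FiniteDimensional ℚ F]
    (H : Subgroup GQ) (h : F.fixingSubgroup ≤ H) :
    (IntermediateField.fixedField H).fixingSubgroup = H ∧ IntermediateField.fixedField H ≤ F := by
  have hopen : IsOpen (H : Set GQ) := Subgroup.isOpen_mono h F.fixingSubgroup_isOpen
  have hclosed : IsClosed (H : Set GQ) := Subgroup.isClosed_of_isOpen H hopen
  refine ⟨InfiniteGalois.fixingSubgroup_fixedField ⟨H, hclosed⟩, ?_⟩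
  calc IntermediateField.fixedField H ≤ IntermediateField.fixedField F.fixingSubgroup :=
        IntermediateField.fixedField_antitone h
    _ = F := InfiniteGalois.fixedField_fixingSubgroup F

/-- **The field `ℚ(M)` cut out by a smooth finite-dimensional representation unramified outside
`S`**: it is finite Galois over `ℚ`, unramified outside `S`, and its fixing subgroup is exactly the
kernel of the representation. -/
theorem exists_field_of_rep {k : Type} [Field k] (M : Rep k GQ) [FiniteDimensional k M]
    (hsm : ∀ m : M, ∃ F : IntermediateField ℚ Qbar, FiniteDimensional ℚ F ∧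
      ∀ s ∈ F.fixingSubgroup, M.ρ s m = m)
    (hMur : ∀ q : Nat.Primes, q ∉ S → ∀ A : ValuationSubring Qbar,
      A.LiesOverPrime (q : ℕ) → ∀ g ∈ A.inertiaSubgroupIn ℚ, M.ρ g = 1) :
    ∃ K : IntermediateField ℚ Qbar, K.IsUnramifiedOutside S ∧ IsGalois ℚ K ∧
      K.fixingSubgroup.Normal ∧ (∀ s : GQ, s ∈ K.fixingSubgroup ↔ M.ρ s = 1) := by
  classical
  -- a finite level trivialising a basis
  let b := Module.finBasis k M
  choose F hFfd hF using hsm
  haveI : ∀ i, FiniteDimensional ℚ (F (b i)) := fun i => hFfd (b i)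
  let F₀ : IntermediateField ℚ Qbar := ⨆ i, F (b i)
  haveI : FiniteDimensional ℚ F₀ := IntermediateField.finiteDimensional_iSup_of_finite
  let H : Subgroup GQ := (M.ρ : GQ →* (M →ₗ[k] M)).ker
  have hH : ∀ s : GQ, s ∈ H ↔ M.ρ s = 1 := fun s => MonoidHom.mem_ker
  have h₀ : F₀.fixingSubgroup ≤ H := by
    intro s hs
    rw [hH]
    refine b.ext fun i => ?_
    have : s ∈ (F (b i)).fixingSubgroup :=
      IntermediateField.fixingSubgroup_antitone (le_iSup (fun i => F (b i)) i) hs
    simpa using hF (b i) s this
  obtain ⟨hfix, hle⟩ := fixingSubgroup_fixedField_of_le H h₀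
  haveI hHn : H.Normal := MonoidHom.normal_ker _
  refine ⟨IntermediateField.fixedField H, ⟨?_, fun q hq A hA σ hσ => ?_⟩, ?_, ?_, ?_⟩
  · exact FiniteDimensional.of_injective (IntermediateField.inclusion hle).toLinearMap
      (IntermediateField.inclusion_injective hle)
  · rw [hfix, hH]
    exact hMur q hq A hA σ hσ
  · exact IsGalois.of_fixedField_normal_subgroup H
  · rw [hfix]; exact hHn
  · intro s
    rw [hfix, hH]

end Unram

end Fermat.Agent.S55.GaloisLevel
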