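/-
S55 / Bridge.GaloisLevel, part (GL5) (helper38).  The mod-`p` cyclotomic character of the Prelude
(`ExtCitation.cycloChar p`) is smooth and unramified outside `p`; consequently the dual twist
`M.dualTwist (cycloChar p)` of a smooth representation unramified outside `S ∋ p` is again smooth
and unramified outside `S` (verbatim the hypotheses `hsm`, `hMur` of the frozen S55).
-/
import Mathlib
import Fermat.Prelude.Def_GroupCohomology_ContinuousUnramified
import Fermat.Agent.S55.GaloisLevel

set_option autoImplicit false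
set_option linter.unusedSectionVars false
set_option linter.style.haveILetI false
open scoped Pointwise

namespace Fermat.Agent.S55.GaloisLevelCyclo

open Fermat.Agent.Lib.InertiaRestrict Fermat.Agent.Lib.FrobeniusIF groupCohomology ExtCitation Fermat.Agent.S55.GaloisLevel

local notation "Qbar" => AlgebraicClosure ℚ
local notation "GQ" => (AlgebraicClosure ℚ ≃ₐ[ℚ] AlgebraicClosure ℚ)

local instance isAlgebraicQbar_glc : Algebra.IsAlgebraic ℚ (AlgebraicClosure ℚ) :=
  AlgebraicClosure.isAlgebraic ℚ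
local instance isAlgClosureQbar_glc : IsAlgClosure ℚ (AlgebraicClosure ℚ) :=
  ⟨inferInstance, inferInstance⟩
local instance normalQbar_glc : Normal ℚ (AlgebraicClosure ℚ) :=
  IsAlgClosure.normal ℚ (AlgebraicClosure ℚ)
local instance isGaloisQbar_glc : IsGalois ℚ (AlgebraicClosure ℚ) := ⟨⟩

variable (p : ℕ) [Fact p.Prime]

/-- The defining property of the Prelude's `cycloChar`. -/
theorem cycloChar_spec (σ : GQ) {t : Qbarˣ} (ht : t ∈ rootsOfUnity p Qbar) :
    σ (t : Qbar) = (t : Qbar) ^ ((cycloChar p σ : ZMod p)).val := by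
  haveI : NeZero p := ⟨(Fact.out : p.Prime).ne_zero⟩
  exact modularCyclotomicCharacter.spec (AlgebraicClosure ℚ) (card_rootsOfUnity_eq_self p)
    (σ : Qbar ≃+* Qbar) ht

/-- The version of `cycloChar_spec` for elements. -/
theorem cycloChar_spec' (σ : GQ) {t : Qbar} (ht : t ^ p = 1) :
    σ t = t ^ ((cycloChar p σ : ZMod p)).val := by
  have hp0 : p ≠ 0 := (Fact.out : p.Prime).ne_zero
  have hu : IsUnit t := IsUnit.of_pow_eq_one ht hp0
  obtain ⟨u, rfl⟩ := hu
  refine cycloChar_spec p σ ?_
  rw [mem_rootsOfUnity]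
  exact Units.ext (by simpa using ht)

/-- If `σ` fixes all `p`-th roots of unity then `cycloChar p σ = 1`. -/
theorem cycloChar_eq_one_of_forall (σ : GQ) (h : ∀ t : Qbar, t ^ p = 1 → σ t = t) :
    cycloChar p σ = 1 := by
  haveI : NeZero p := ⟨(Fact.out : p.Prime).ne_zero⟩
  haveI : Fact (1 < p) := ⟨(Fact.out : p.Prime).one_lt⟩
  have key := modularCyclotomicCharacter.unique (AlgebraicClosure ℚ) (card_rootsOfUnity_eq_self p)
    (σ : Qbar ≃+* Qbar) (c := 1) (fun t ht => by
      rw [ZMod.val_one, pow_one]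
      refine h (t : Qbar) ?_
      rw [mem_rootsOfUnity] at ht
      have := congrArg (fun u : Qbarˣ => (u : Qbar)) ht
      simpa using this)
  apply Units.ext
  exact key.symm

/-- The cyclotomic field `ℚ(μ_p)` inside `Qbar`. -/
noncomputable def cycloField : IntermediateField ℚ Qbar :=
  IntermediateField.adjoin ℚ {t : Qbar | t ^ p = 1}

theorem finite_rootsOfUnity_set : {t : Qbar | t ^ p = 1}.Finite := by
  have hp0 : 0 < p := (Fact.out : p.Prime).pos
  have : {t : Qbar | t ^ p = 1} = ((Polynomial.nthRootsFinset p (1 : Qbar) : Finset Qbar) : Set Qbar) := by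
    ext t
    simp [Polynomial.mem_nthRootsFinset hp0]
  rw [this]
  exact Finset.finite_toSet _

theorem finiteDimensional_cycloField : FiniteDimensional ℚ (cycloField p) := by
  have hp0 : 0 < p := (Fact.out : p.Prime).pos
  haveI : Finite {t : Qbar | t ^ p = 1} := (finite_rootsOfUnity_set p).to_subtype
  refine IntermediateField.finiteDimensional_adjoin (fun t ht => ?_)
  haveI : Algebra.IsAlgebraic ℚ Qbar := AlgebraicClosure.isAlgebraic ℚ
  exact (Algebra.IsAlgebraic.isAlgebraic (R := ℚ) t).isIntegral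

/-- `cycloChar p` is trivial on the fixing subgroup of `ℚ(μ_p)`: the character is smooth. -/
theorem cycloChar_eq_one_of_mem_fixingSubgroup {σ : GQ} (hσ : σ ∈ (cycloField p).fixingSubgroup) :
    cycloChar p σ = 1 := by
  refine cycloChar_eq_one_of_forall p σ (fun t ht => ?_)
  rw [IntermediateField.mem_fixingSubgroup_iff] at hσ
  exact hσ t (IntermediateField.subset_adjoin ℚ _ ht)

/-- A root of unity different from `1` which is congruent to `1` modulo the maximal ideal of a
valuation subring forces `p` into that maximal ideal. -/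
theorem natCast_mem_nonunits_of_root (A : ValuationSubring Qbar) {u : Qbar} (hu : u ^ p = 1)
    (hu1 : u ≠ 1) (h : u - 1 ∈ A.nonunits) : (p : Qbar) ∈ A.nonunits := by
  have hp0 : p ≠ 0 := (Fact.out : p.Prime).ne_zero
  have huA : u ∈ A := by
    have : IsIntegral ℤ u := ⟨Polynomial.X ^ p - 1, Polynomial.monic_X_pow_sub_C 1 hp0, by simp [hu]⟩
    exact mem_of_isIntegral_int A this
  -- the geometric sum vanishes
  have hsum : ∑ j ∈ Finset.range p, u ^ j = 0 := by
    have := geom_sum_mul u p
    rw [hu, sub_self] at this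
    rcases mul_eq_zero.1 this with h0 | h0
    · exact h0
    · exact absurd (sub_eq_zero.1 h0) hu1
  have hp : (p : Qbar) = ∑ j ∈ Finset.range p, (1 - u ^ j) := by
    rw [Finset.sum_sub_distrib, hsum, sub_zero]
    simp
  rw [hp, A.mem_nonunits_iff]
  refine Valuation.map_sum_lt _ one_ne_zero (fun j _ => ?_)
  rw [← A.mem_nonunits_iff]
  have hj : 1 - u ^ j = (u - 1) * (-(∑ i ∈ Finset.range j, u ^ i)) := by
    have := geom_sum_mul u j
    linear_combination this
  rw [hj]
  exact mul_mem_nonunits A h (neg_mem (sum_mem fun i _ => pow_mem huA i))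

/-- **The mod-`p` cyclotomic character is unramified outside `p`.** -/
theorem cycloChar_eq_one_of_mem_inertia {q : ℕ} (hq : q.Prime) (hqp : q ≠ p)
    (A : ValuationSubring Qbar) (hA : A.LiesOverPrime q) {σ : GQ}
    (hσ : σ ∈ A.inertiaSubgroupIn ℚ) : cycloChar p σ = 1 := by
  have hpp : p.Prime := Fact.out
  have hp0 : p ≠ 0 := hpp.ne_zero
  refine cycloChar_eq_one_of_forall p σ (fun t ht => ?_)
  by_contra hne
  have htA : t ∈ A := by
    have : IsIntegral ℤ t := ⟨Polynomial.X ^ p - 1, Polynomial.monic_X_pow_sub_C 1 hp0, by simp [ht]⟩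
    exact mem_of_isIntegral_int A this
  have ht0 : t ≠ 0 := by
    rintro rfl
    simp [hp0] at ht
  have htinv : t⁻¹ ∈ A := by
    have : t⁻¹ = t ^ (p - 1) := by
      rw [eq_comm, ← mul_eq_one_iff_eq_inv₀ ht0, ← pow_succ,
        Nat.sub_add_cancel hpp.one_le, ht]
    rw [this]
    exact pow_mem htA _
  -- u = σ t / t is a nontrivial p-th root of unity congruent to 1
  set u : Qbar := σ t * t⁻¹ with hu
  have hup : u ^ p = 1 := by
    rw [hu, mul_pow, ← map_pow, ht, map_one, inv_pow, ht, inv_one, mul_one]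
  have hu1 : u ≠ 1 := by
    intro h1
    apply hne
    rw [hu, mul_inv_eq_one₀ ht0] at h1
    exact h1
  have hmem : u - 1 ∈ A.nonunits := by
    have h1 : u - 1 = (σ t - t) * t⁻¹ := by
      rw [hu, sub_mul, mul_inv_cancel₀ ht0]
    rw [h1]
    exact mul_mem_nonunits A (apply_sub_mem_nonunits hσ htA) htinv
  have hpA : (p : Qbar) ∈ A.nonunits := natCast_mem_nonunits_of_root p A hup hu1 hmem
  -- p and q are coprime
  have hcop : IsCoprime (p : ℤ) (q : ℤ) := by
    rw [Int.isCoprime_iff_gcd_eq_one, Int.gcd_natCast_natCast]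
    exact (Nat.coprime_primes hpp hq).2 (Ne.symm hqp)
  obtain ⟨a, b, hab⟩ := hcop
  have h1 : (1 : Qbar) ∈ A.nonunits := by
    have e : (1 : Qbar) = (a : Qbar) * (p : Qbar) + (b : Qbar) * (q : Qbar) := by
      have := congrArg (fun z : ℤ => (z : Qbar)) hab
      push_cast at this
      exact this.symm
    rw [e, A.mem_nonunits_iff]
    refine Valuation.map_add_lt _ ?_ ?_
    · rw [← A.mem_nonunits_iff, mul_comm]
      exact mul_mem_nonunits A hpA (mem_of_isIntegral_int A (isIntegral_algebraMap (x := a)))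
    · rw [← A.mem_nonunits_iff, mul_comm]
      exact mul_mem_nonunits A hA (mem_of_isIntegral_int A (isIntegral_algebraMap (x := b)))
  rw [A.mem_nonunits_iff, map_one] at h1
  exact lt_irrefl _ h1

section DualTwist

variable {p}
variable {S : Finset Nat.Primes} (M : Rep.{0, 0, 0} (ZMod p) GQ) [FiniteDimensional (ZMod p) M]

/-- A smooth finite-dimensional representation is trivial on the fixing subgroup of a finite
field (no ramification hypothesis). -/
theorem exists_finite_level_of_smooth {k : Type} [Field k] (M : Rep k GQ) [FiniteDimensional k M]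
    (hsm : ∀ m : M, ∃ F : IntermediateField ℚ Qbar, FiniteDimensional ℚ F ∧
      ∀ s ∈ F.fixingSubgroup, M.ρ s m = m) :
    ∃ F : IntermediateField ℚ Qbar, FiniteDimensional ℚ F ∧ ∀ s ∈ F.fixingSubgroup, M.ρ s = 1 := by
  classical
  let b := Module.finBasis k M
  choose F hFfd hF using hsm
  haveI : ∀ i, FiniteDimensional ℚ (F (b i)) := fun i => hFfd (b i)
  refine ⟨⨆ i, F (b i), IntermediateField.finiteDimensional_iSup_of_finite, fun s hs => ?_⟩
  refine b.ext fun i => ?_
  have : s ∈ (F (b i)).fixingSubgroup :=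
    IntermediateField.fixingSubgroup_antitone (le_iSup (fun i => F (b i)) i) hs
  simpa using hF (b i) s this

/-- `hsm` for the dual twist: `M.dualTwist (cycloChar p)` is smooth. -/
theorem dualTwist_smooth
    (hsm : ∀ m : M, ∃ F : IntermediateField ℚ Qbar, FiniteDimensional ℚ F ∧
      ∀ s ∈ F.fixingSubgroup, M.ρ s m = m) :
    ∀ m : M.dualTwist (cycloChar p), ∃ F : IntermediateField ℚ Qbar, FiniteDimensional ℚ F ∧
      ∀ s ∈ F.fixingSubgroup, (M.dualTwist (cycloChar p)).ρ s m = m := by
  obtain ⟨F, hFfd, hF⟩ := exists_finite_level_of_smooth M hsm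
  haveI := hFfd
  haveI := finiteDimensional_cycloField p
  intro m
  refine ⟨F ⊔ cycloField p, IntermediateField.finiteDimensional_sup F (cycloField p),
    fun s hs => ?_⟩
  have hs1 : s ∈ F.fixingSubgroup := IntermediateField.fixingSubgroup_antitone le_sup_left hs
  have hs2 : s ∈ (cycloField p).fixingSubgroup :=
    IntermediateField.fixingSubgroup_antitone le_sup_right hs
  have h1 : M.ρ s⁻¹ = 1 := hF s⁻¹ (inv_mem hs1)
  have h2 : cycloChar p s = 1 := cycloChar_eq_one_of_mem_fixingSubgroup p hs2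
  change (M.dualTwist (cycloChar p)).ρ s (m : Module.Dual (ZMod p) M) = m
  rw [Rep.dualTwist_ρ_apply, h1, h2, Units.val_one, one_smul]
  exact LinearMap.ext fun x => rfl

/-- `hMur` for the dual twist: `M.dualTwist (cycloChar p)` is unramified outside `S ∋ p`. -/
theorem dualTwist_unramified (hpS : pPrime p ∈ S)
    (hMur : ∀ q : Nat.Primes, q ∉ S → ∀ A : ValuationSubring Qbar,
      A.LiesOverPrime (q : ℕ) → ∀ g ∈ A.inertiaSubgroupIn ℚ, M.ρ g = 1) :
    ∀ q : Nat.Primes, q ∉ S → ∀ A : ValuationSubring Qbar,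
      A.LiesOverPrime (q : ℕ) → ∀ g ∈ A.inertiaSubgroupIn ℚ,
        (M.dualTwist (cycloChar p)).ρ g = 1 := by
  intro q hq A hA g hg
  have hqp : (q : ℕ) ≠ p := by
    rintro h
    apply hq
    have : q = pPrime p := Subtype.ext h
    rw [this]; exact hpS
  have h1 : M.ρ g⁻¹ = 1 := hMur q hq A hA g⁻¹ (inv_mem hg)
  have h2 : cycloChar p g = 1 := cycloChar_eq_one_of_mem_inertia p q.2 hqp A hA hg
  refine LinearMap.ext fun m => ?_
  change (M.dualTwist (cycloChar p)).ρ g (m : Module.Dual (ZMod p) M) = m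
  rw [Rep.dualTwist_ρ_apply, h1, h2, Units.val_one, one_smul]
  exact LinearMap.ext fun x => rfl

instance finiteDimensional_dualTwist {k : Type} [Field k] {G : Type} [Group G]
    (A : Rep.{0, 0, 0} k G) (χ : G →* kˣ) [FiniteDimensional k A] :
    FiniteDimensional k (A.dualTwist χ) :=
  inferInstanceAs (FiniteDimensional k (Module.Dual k A))

/-- `σ` fixes `ℚ(μ_p)` pointwise iff `cycloChar p σ = 1`. -/
theorem mem_fixingSubgroup_cycloField_iff (σ : GQ) :
    σ ∈ (cycloField p).fixingSubgroup ↔ cycloChar p σ = 1 := by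
  refine ⟨cycloChar_eq_one_of_mem_fixingSubgroup p, fun h => ?_⟩
  have hle : cycloField p ≤ IntermediateField.fixedField (Subgroup.zpowers σ) := by
    rw [cycloField, IntermediateField.adjoin_le_iff]
    intro t ht
    rw [SetLike.mem_coe, IntermediateField.mem_fixedField_iff]
    intro f hf
    obtain ⟨n, rfl⟩ := Subgroup.mem_zpowers_iff.1 hf
    have hfix : σ t = t := by
      rw [cycloChar_spec' p σ ht, h]
      haveI : Fact (1 < p) := ⟨(Fact.out : p.Prime).one_lt⟩
      simp [ZMod.val_one]
    have hstab : σ ∈ MulAction.stabilizer GQ t := hfix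
    exact (Subgroup.zpow_mem _ hstab n : σ ^ n ∈ MulAction.stabilizer GQ t)
  exact (IntermediateField.le_iff_le _ _).1 hle (Subgroup.mem_zpowers σ)

/-- `ℚ(μ_p)` is unramified outside any `S ∋ p`. -/
theorem cycloField_isUnramifiedOutside (hpS : pPrime p ∈ S) :
    (cycloField p).IsUnramifiedOutside S := by
  refine ⟨finiteDimensional_cycloField p, fun q hq A hA σ hσ => ?_⟩
  have hqp : (q : ℕ) ≠ p := by
    rintro h
    apply hq
    have : q = pPrime p := Subtype.ext h
    rw [this]; exact hpS
  rw [mem_fixingSubgroup_cycloField_iff]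
  exact cycloChar_eq_one_of_mem_inertia p q.2 hqp A hA hσ

/-- **The field `ℚ(M, μ_p)`**: finite Galois over `ℚ`, unramified outside `S`, with fixing subgroup
`ker ρ_M ∩ ker (cycloChar p)`.  (The field over which both `M` and `M' = M^∨(1)` become trivial.) -/
theorem exists_field_of_rep_cyclo (hpS : pPrime p ∈ S)
    (hsm : ∀ m : M, ∃ F : IntermediateField ℚ Qbar, FiniteDimensional ℚ F ∧
      ∀ s ∈ F.fixingSubgroup, M.ρ s m = m)
    (hMur : ∀ q : Nat.Primes, q ∉ S → ∀ A : ValuationSubring Qbar,
      A.LiesOverPrime (q : ℕ) → ∀ g ∈ A.inertiaSubgroupIn ℚ, M.ρ g = 1) :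
    ∃ K : IntermediateField ℚ Qbar, K.IsUnramifiedOutside S ∧ IsGalois ℚ K ∧
      K.fixingSubgroup.Normal ∧ cycloField p ≤ K ∧
      (∀ s : GQ, s ∈ K.fixingSubgroup ↔ (M.ρ s = 1 ∧ cycloChar p s = 1)) := by
  obtain ⟨K, hK, hKg, hKn, hKmem⟩ := exists_field_of_rep (S := S) M hsm hMur
  have hsup : (K ⊔ cycloField p).IsUnramifiedOutside S :=
    hK.sup (cycloField_isUnramifiedOutside hpS)
  have hmem : ∀ s : GQ, s ∈ (K ⊔ cycloField p).fixingSubgroup ↔
      (M.ρ s = 1 ∧ cycloChar p s = 1) := by
    intro s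
    rw [IntermediateField.fixingSubgroup_sup, Subgroup.mem_inf, hKmem,
      mem_fixingSubgroup_cycloField_iff]
  have hnormal : (K ⊔ cycloField p).fixingSubgroup.Normal := by
    refine ⟨fun s hs g => ?_⟩
    rw [hmem] at hs ⊢
    refine ⟨?_, ?_⟩
    · rw [map_mul, map_mul, hs.1, mul_one, ← map_mul, mul_inv_cancel, map_one]
    · rw [map_mul, map_mul, hs.2, mul_one, ← map_mul, mul_inv_cancel, map_one]
  refine ⟨K ⊔ cycloField p, hsup, ?_, hnormal, le_sup_right, hmem⟩
  have hfd := hsup.1
  have h2 := InfiniteGalois.fixedField_fixingSubgroup (K ⊔ cycloField p)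
  rw [← h2]
  exact IsGalois.of_fixedField_normal_subgroup _

end DualTwist

end Fermat.Agent.S55.GaloisLevelCyclo
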