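/-
S55 / formal end (helper60): unipotent dévissage for mod-`p` representations.

* `exists_fixed_ne_zero`: if every group element acts with `p`-power order on a nonzero
  finite-dimensional `ZMod p`-representation, there is a nonzero fixed vector.
* `induction_on`: a property of representations which holds for the zero representation, for
  every trivial line, and is stable under extensions, holds for every finite-dimensional
  representation on which every group element acts with `p`-power order.

Mathlib only.
-/
import Mathlib

set_option autoImplicit false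
set_option linter.style.haveILetI false

open CategoryTheory

namespace Fermat.Agent.S55.Unipotent

universe w u

variable {p : ℕ} [hp : Fact p.Prime] {G : Type u} [Group G]

/-- Every group element acts with `p`-power order. -/
def IsPPower {V : Type w} [AddCommGroup V] [Module (ZMod p) V]
    (ρ : Representation (ZMod p) G V) : Prop :=
  ∀ g : G, ∃ n : ℕ, (ρ g) ^ (p ^ n) = 1

section fixed

variable {V : Type w} [AddCommGroup V] [Module (ZMod p) V] (ρ : Representation (ZMod p) G V)

/-- A nonzero fixed vector. -/
theorem exists_fixed_ne_zero [FiniteDimensional (ZMod p) V] [Nontrivial V] (hρ : IsPPower ρ) :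
    ∃ v : V, v ≠ 0 ∧ ∀ g : G, ρ g v = v := by
  classical
  haveI : Finite V := Module.finite_of_finite (ZMod p)
  let H : Subgroup (Units (V →ₗ[ZMod p] V)) := ρ.asGroupHom.range
  have hH : IsPGroup p H := by
    rintro ⟨h, g, rfl⟩
    obtain ⟨n, hn⟩ := hρ g
    refine ⟨n, ?_⟩
    apply Subtype.ext
    apply Units.ext
    simp only [SubmonoidClass.coe_pow, Units.val_pow_eq_pow_val, Representation.asGroupHom_apply,
      OneMemClass.coe_one, Units.val_one]
    exact hn
  have hcard : p ∣ Nat.card V := by
    have h1 : Nat.card V = p ^ Module.finrank (ZMod p) V := by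
      rw [Module.natCard_eq_pow_finrank (K := ZMod p) (V := V), Nat.card_eq_fintype_card,
        ZMod.card]
    rw [h1]
    exact dvd_pow_self p (Module.finrank_pos (R := ZMod p) (M := V)).ne'
  have h0 : (0 : V) ∈ MulAction.fixedPoints H V := by
    intro h
    show (h : Units (V →ₗ[ZMod p] V)) • (0 : V) = 0
    exact smul_zero _
  obtain ⟨v, hv, hv0⟩ := hH.exists_fixed_point_of_prime_dvd_card_of_fixed_point V hcard h0
  refine ⟨v, fun h => hv0 h.symm, fun g => ?_⟩
  have := hv ⟨ρ.asGroupHom g, g, rfl⟩
  have h2 : (ρ.asGroupHom g) • v = v := this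
  rw [Units.smul_def, Representation.asGroupHom_apply] at h2
  exact h2

end fixed

section induction

/-- `IsPPower` passes to subrepresentations. -/
theorem IsPPower.sub {V : Type w} [AddCommGroup V] [Module (ZMod p) V]
    {ρ : Representation (ZMod p) G V} (hρ : IsPPower ρ) (W : Submodule (ZMod p) V)
    (hW : ∀ g, W ≤ W.comap (ρ g)) : IsPPower (ρ.subrepresentation W hW) := by
  intro g
  obtain ⟨n, hn⟩ := hρ g
  refine ⟨n, ?_⟩
  rw [← map_pow]
  apply LinearMap.ext
  intro x
  apply Subtype.ext
  rw [Representation.subrepresentation_apply, LinearMap.coe_restrict_apply, map_pow, hn]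
  rfl

/-- `IsPPower` passes to quotient representations. -/
theorem IsPPower.quot {V : Type w} [AddCommGroup V] [Module (ZMod p) V]
    {ρ : Representation (ZMod p) G V} (hρ : IsPPower ρ) (W : Submodule (ZMod p) V)
    (hW : ∀ g, W ≤ W.comap (ρ g)) : IsPPower (ρ.quotient W hW) := by
  intro g
  obtain ⟨n, hn⟩ := hρ g
  refine ⟨n, ?_⟩
  rw [← map_pow]
  apply LinearMap.ext
  intro x
  induction x using Submodule.Quotient.induction_on with
  | H x =>
    rw [Representation.quotient_apply, Submodule.mapQ_apply, map_pow, hn]
    rfl

/-- **Unipotent dévissage.**  A property of `ZMod p`-representations of `G` which holds for zero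
representations and for trivial lines, and is stable under extensions, holds for every
finite-dimensional representation on which every element of `G` acts with `p`-power order. -/
theorem induction_on {P : Rep.{w} (ZMod p) G → Prop}
    (zero : ∀ A : Rep.{w} (ZMod p) G, Subsingleton A → P A)
    (triv : ∀ A : Rep.{w} (ZMod p) G, Module.finrank (ZMod p) A = 1 → (∀ g, A.ρ g = 1) → P A)
    (ext : ∀ (A B C : Rep.{w} (ZMod p) G) (φ : A ⟶ B) (ψ : B ⟶ C),
      Function.Injective φ.hom → Function.Surjective ψ.hom →
      (∀ b, ψ.hom b = 0 ↔ ∃ a, φ.hom a = b) →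
      FiniteDimensional (ZMod p) A → FiniteDimensional (ZMod p) C →
      IsPPower A.ρ → IsPPower C.ρ → P A → P C → P B)
    (M : Rep.{w} (ZMod p) G) [FiniteDimensional (ZMod p) M] (hM : IsPPower M.ρ) : P M := by
  classical
  induction hn : Module.finrank (ZMod p) M using Nat.strong_induction_on generalizing M with
  | _ n ih =>
    by_cases h0 : Subsingleton M
    · exact zero M h0
    · haveI : Nontrivial M := not_subsingleton_iff_nontrivial.mp h0
      obtain ⟨v, hv0, hv⟩ := exists_fixed_ne_zero M.ρ hM
      set W : Submodule (ZMod p) M := Submodule.span (ZMod p) {v} with hWdef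
      have hW : ∀ g, W ≤ W.comap (M.ρ g) := by
        intro g x hx
        rw [Submodule.mem_comap]
        obtain ⟨c, rfl⟩ := Submodule.mem_span_singleton.mp hx
        rw [map_smul, hv g]
        exact Submodule.smul_mem _ _ (Submodule.mem_span_singleton_self v)
      let A : Rep.{w} (ZMod p) G := Rep.of (M.ρ.subrepresentation W hW)
      let C : Rep.{w} (ZMod p) G := Rep.of (M.ρ.quotient W hW)
      let φ : A ⟶ M := Rep.ofHom (ρ := M.ρ.subrepresentation W hW) (σ := M.ρ)
        (W.subtype.intertwiningMap_of_isIntertwiningMap _ _ (fun g x => rfl))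
      let ψ : M ⟶ C := Rep.ofHom (ρ := M.ρ) (σ := M.ρ.quotient W hW)
        (W.mkQ.intertwiningMap_of_isIntertwiningMap _ _ (fun g x => rfl))
      have hφ : Function.Injective φ.hom := fun a b hab => Subtype.ext hab
      have hψ : Function.Surjective ψ.hom := Submodule.mkQ_surjective W
      have hex : ∀ b, ψ.hom b = 0 ↔ ∃ a, φ.hom a = b := by
        intro b
        constructor
        · intro hb
          have hbW : b ∈ W := (Submodule.Quotient.mk_eq_zero W).mp hb
          exact ⟨⟨b, hbW⟩, rfl⟩
        · rintro ⟨a, rfl⟩
          exact (Submodule.Quotient.mk_eq_zero W).mpr a.2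
      have hfrW : Module.finrank (ZMod p) W = 1 := finrank_span_singleton hv0
      haveI : FiniteDimensional (ZMod p) A := inferInstanceAs (FiniteDimensional (ZMod p) W)
      haveI : FiniteDimensional (ZMod p) C := inferInstanceAs (FiniteDimensional (ZMod p) (M ⧸ W))
      have hfrC : Module.finrank (ZMod p) C < n := by
        have h1 : Module.finrank (ZMod p) (M ⧸ W) + Module.finrank (ZMod p) W =
            Module.finrank (ZMod p) M := Submodule.finrank_quotient_add_finrank W
        have h2 : Module.finrank (ZMod p) C = Module.finrank (ZMod p) (M ⧸ W) := rfl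
        omega
      have hA : IsPPower A.ρ := hM.sub W hW
      have hC : IsPPower C.ρ := hM.quot W hW
      have hAtriv : ∀ g, A.ρ g = 1 := by
        intro g
        apply LinearMap.ext
        intro x
        apply Subtype.ext
        obtain ⟨c, hc⟩ := Submodule.mem_span_singleton.mp x.2
        show M.ρ g (x : M) = x
        rw [← hc, map_smul, hv g]
      exact ext A M C φ ψ hφ hψ hex inferInstance inferInstance hA hC
        (triv A hfrW hAtriv) (ih _ hfrC C hC rfl)

end induction

end Fermat.Agent.S55.Unipotent
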