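/-
S55 / G.kummerRam (helper56): ramification in Kummer extensions of degree `p`.

`K` a number field containing a primitive `p`-th root of unity `ζ`, `L/K` generated by `α` with
`α ^ p = a ∈ K`, `v` a finite place of `K` not above `p`.  Then

* `unramAt_of_pDvdVal` : `p ∣ v(a)`  ⟹  every inertia group of `L/K` above `v` is trivial;
* `pDvdVal_of_unramAt` : `L/K` Galois, unramified above `v`, `a ≠ 0`  ⟹  `p ∣ v(a)`
  (no root of unity / generation hypothesis needed for this direction).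

Vocabulary: `UnramAt K L P` (all inertia groups `Q.inertia (L ≃ₐ[K] L)`, `Q ∣ P`, are trivial; this is
the pointwise form of `Fermat.Agent.S14.Unram`) and `PDvdVal p v a` (`v(a) = exp (p * m)`).
-/
import Mathlib

set_option autoImplicit false
set_option linter.unusedSectionVars false

open NumberField IsDedekindDomain

namespace Fermat.Agent.S55.KummerRam

variable {K L : Type*} [Field K] [NumberField K] [Field L] [NumberField L] [Algebra K L]

/-- `p ∣ v(a)` for the `v`-adic valuation of the number field `K` (false for `a = 0`). -/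
def PDvdVal (p : ℕ) (v : HeightOneSpectrum (𝓞 K)) (a : K) : Prop :=
  ∃ m : ℤ, v.valuation K a = WithZero.exp ((p : ℤ) * m)

variable (K L) in
/-- `L/K` is unramified above the prime `P` of `𝓞 K`: all inertia groups over `P` are trivial. -/
def UnramAt (P : Ideal (𝓞 K)) : Prop :=
  ∀ Q : Ideal (𝓞 L), Q.IsPrime → Q.LiesOver P →
    ∀ σ : L ≃ₐ[K] L, σ ∈ Q.inertia (L ≃ₐ[K] L) → σ = 1

/-! ### Elementary properties of `PDvdVal` -/

theorem PDvdVal.ne_zero {p : ℕ} {v : HeightOneSpectrum (𝓞 K)} {a : K} (h : PDvdVal p v a) :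
    a ≠ 0 := by
  obtain ⟨m, hm⟩ := h
  intro h0
  rw [h0, map_zero] at hm
  exact WithZero.exp_ne_zero hm.symm

theorem pDvdVal_of_valuation_eq_one {p : ℕ} {v : HeightOneSpectrum (𝓞 K)} {a : K}
    (h : v.valuation K a = 1) : PDvdVal p v a :=
  ⟨0, by simpa using h⟩

theorem pDvdVal_one (p : ℕ) (v : HeightOneSpectrum (𝓞 K)) : PDvdVal p v (1 : K) :=
  pDvdVal_of_valuation_eq_one (map_one _)

theorem PDvdVal.mul {p : ℕ} {v : HeightOneSpectrum (𝓞 K)} {a b : K} (ha : PDvdVal p v a)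
    (hb : PDvdVal p v b) : PDvdVal p v (a * b) := by
  obtain ⟨m, hm⟩ := ha
  obtain ⟨n, hn⟩ := hb
  exact ⟨m + n, by rw [map_mul, hm, hn, ← WithZero.exp_add, mul_add]⟩

theorem PDvdVal.inv {p : ℕ} {v : HeightOneSpectrum (𝓞 K)} {a : K} (ha : PDvdVal p v a) :
    PDvdVal p v a⁻¹ := by
  obtain ⟨m, hm⟩ := ha
  exact ⟨-m, by rw [map_inv₀, hm, ← WithZero.exp_neg, mul_neg]⟩

theorem pDvdVal_pow (p : ℕ) (v : HeightOneSpectrum (𝓞 K)) {b : K} (hb : b ≠ 0) :
    PDvdVal p v (b ^ p) := by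
  have hb0 : v.valuation K b ≠ 0 := by simpa using hb
  refine ⟨WithZero.log (v.valuation K b), ?_⟩
  rw [map_pow, ← WithZero.exp_log hb0, ← WithZero.exp_nsmul]
  simp

theorem pDvdVal_mul_pow_iff (p : ℕ) (v : HeightOneSpectrum (𝓞 K)) {a b : K} (hb : b ≠ 0) :
    PDvdVal p v (a * b ^ p) ↔ PDvdVal p v a := by
  refine ⟨fun h => ?_, fun h => h.mul (pDvdVal_pow p v hb)⟩
  have := h.mul (pDvdVal_pow p v hb).inv
  rwa [mul_assoc, mul_inv_cancel₀ (pow_ne_zero _ hb), mul_one] at this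

/-! ### Generators and roots of unity modulo a prime -/

omit [NumberField K] [NumberField L] in
/-- An automorphism fixing a generator of `L/K` is trivial. -/
theorem eq_one_of_fix_gen {β : L} (hgen : Algebra.adjoin K {β} = ⊤)
    (σ : L ≃ₐ[K] L) (h : σ β = β) : σ = 1 := by
  have h1 : (σ : L →ₐ[K] L) = AlgHom.id K L := by
    apply AlgHom.ext_of_adjoin_eq_top hgen
    intro x hx
    rw [Set.mem_singleton_iff] at hx
    subst hx
    simpa using h
  ext x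
  have := congrArg (fun f : L →ₐ[K] L => f x) h1
  simpa using this

/-- `p`-th roots of unity stay distinct modulo a prime not containing `p`:
if `μ ^ p = 1`, `μ - 1 ∈ Q` and `(p : R) ∉ Q` then `μ = 1`. -/
theorem eq_one_of_pow_eq_one_of_sub_one_mem {R : Type*} [CommRing R] [IsDomain R]
    (Q : Ideal R) {p : ℕ} (hpQ : (p : R) ∉ Q) {μ : R} (hμ : μ ^ p = 1) (hμQ : μ - 1 ∈ Q) :
    μ = 1 := by
  by_contra hne
  have hsum : ∑ i ∈ Finset.range p, μ ^ i = 0 := by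
    have h := geom_sum_mul μ p
    rw [hμ, sub_self] at h
    rcases mul_eq_zero.1 h with h | h
    · exact h
    · exact absurd (sub_eq_zero.1 h) hne
  apply hpQ
  have h2 : (p : R) = -(∑ i ∈ Finset.range p, (μ ^ i - 1)) := by
    rw [Finset.sum_sub_distrib, hsum]
    simp
  rw [h2]
  apply Q.neg_mem
  apply Q.sum_mem
  intro i _
  have hd : μ - 1 ∣ μ ^ i - 1 := by
    simpa using sub_dvd_pow_sub_pow μ 1 i
  exact Q.mem_of_dvd hd hμQ

/-! ### The core computation -/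

omit [NumberField K] [NumberField L] in
/-- **Core lemma.**  `β ∈ 𝓞 L` generates `L/K` (in the sense that an automorphism fixing it is
trivial), `β ^ p = u ∈ 𝓞 K` with `u ∉ P` and `p ∉ P`, `ζ ∈ K` a primitive `p`-th root of unity:
then the inertia group of every prime `Q` of `𝓞 L` over `P` is trivial. -/
theorem eq_one_of_mem_inertia_of_unit_root {p : ℕ} (hp : p.Prime) {ζ : K}
    (hζ : IsPrimitiveRoot ζ p)
    (β : 𝓞 L) (hgen : ∀ σ : L ≃ₐ[K] L, σ (algebraMap (𝓞 L) L β) = algebraMap (𝓞 L) L β → σ = 1)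
    (u : 𝓞 K) (hβ : β ^ p = algebraMap (𝓞 K) (𝓞 L) u)
    (P : Ideal (𝓞 K)) (Q : Ideal (𝓞 L)) [Q.IsPrime] [Q.LiesOver P] (hu : u ∉ P)
    (hpP : (p : 𝓞 K) ∉ P)
    (σ : L ≃ₐ[K] L) (hσ : σ ∈ Q.inertia (L ≃ₐ[K] L)) : σ = 1 := by
  have hPQ : ∀ x : 𝓞 K, algebraMap (𝓞 K) (𝓞 L) x ∈ Q ↔ x ∈ P := by
    intro x
    rw [Ideal.LiesOver.over (p := P) (P := Q), Ideal.mem_comap]
  have hβQ : β ∉ Q := by
    intro h
    have : β ^ p ∈ Q := Ideal.pow_mem_of_mem Q h p hp.pos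
    rw [hβ, hPQ] at this
    exact hu this
  have hpQ : (p : 𝓞 L) ∉ Q := by
    intro h
    have h' : algebraMap (𝓞 K) (𝓞 L) (p : 𝓞 K) ∈ Q := by simpa using h
    exact hpP ((hPQ _).1 h')
  set b : L := algebraMap (𝓞 L) L β with hb
  have hβ0 : b ≠ 0 := by
    intro h
    apply hβQ
    have : β = 0 := (RingOfIntegers.coe_eq_zero_iff).1 h
    rw [this]; exact Q.zero_mem
  have hζL : IsPrimitiveRoot (algebraMap K L ζ) p := hζ.map_of_injective (algebraMap K L).injective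
  have : NeZero p := ⟨hp.ne_zero⟩
  have hβL : b ^ p = algebraMap K L (algebraMap (𝓞 K) K u) := by
    rw [hb, ← map_pow, hβ, ← IsScalarTower.algebraMap_apply (𝓞 K) (𝓞 L) L,
      IsScalarTower.algebraMap_apply (𝓞 K) K L]
  have hpow : (σ b / b) ^ p = 1 := by
    rw [div_pow, ← map_pow, hβL, σ.commutes, div_self]
    rw [← hβL]; exact pow_ne_zero _ hβ0
  obtain ⟨k, _, hk⟩ := hζL.eq_pow_of_pow_eq_one hpow
  obtain ⟨ζ', hζ'⟩ : ∃ ζ' : 𝓞 L, algebraMap (𝓞 L) L ζ' = algebraMap K L ζ :=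
    ⟨hζL.toInteger, rfl⟩
  have hσβ : σ • β = ζ' ^ k * β := by
    apply RingOfIntegers.coe_injective
    rw [map_mul, map_pow, hζ', hk, ← hb, div_mul_cancel₀ _ hβ0]
    rfl
  have hmem : (ζ' ^ k - 1) * β ∈ Q := by
    have h3 : σ • β - β ∈ Q := hσ β
    rw [hσβ] at h3
    have h4 : (ζ' ^ k - 1) * β = ζ' ^ k * β - β := by ring
    rw [h4]; exact h3
  have hμQ : ζ' ^ k - 1 ∈ Q := (Ideal.IsPrime.mem_or_mem inferInstance hmem).resolve_right hβQ
  have hμp : (ζ' ^ k) ^ p = 1 := by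
    apply RingOfIntegers.coe_injective
    rw [map_pow, map_pow, hζ', ← pow_mul, mul_comm, pow_mul, hζL.pow_eq_one, one_pow, map_one]
  have h1 : ζ' ^ k = 1 := eq_one_of_pow_eq_one_of_sub_one_mem Q hpQ hμp hμQ
  apply hgen
  have h2 := congrArg (algebraMap (𝓞 L) L) hσβ
  rw [h1, one_mul] at h2
  exact h2

/-- If `p ∣ v(a)` then `a = u / c ^ p` with `u ∈ 𝓞 K` a `v`-unit and `c ∈ Kˣ`. -/
theorem exists_unit_form {p : ℕ} (hp : 0 < p) (v : HeightOneSpectrum (𝓞 K)) {a : K}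
    (h : PDvdVal p v a) :
    ∃ (c : K) (u : 𝓞 K), c ≠ 0 ∧ u ∉ v.asIdeal ∧ a * c ^ p = algebraMap (𝓞 K) K u := by
  obtain ⟨m, hm⟩ := h
  obtain ⟨π, hπ⟩ := v.valuation_exists_uniformizer K
  have hπ0 : π ≠ 0 := by
    intro h0; rw [h0, map_zero] at hπ; exact WithZero.exp_ne_zero.symm hπ |>.elim
  set x : K := a * (π ^ m) ^ p with hx
  have hvx : v.valuation K x = 1 := by
    rw [hx, map_mul, map_pow, map_zpow₀, hm, hπ, ← WithZero.exp_zsmul, ← WithZero.exp_nsmul,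
      ← WithZero.exp_add]
    simp
  obtain ⟨n, d, hnd⟩ := v.exists_primeCompl_mul_eq_of_integer x hvx.le
  have hd : (d : 𝓞 K) ∉ v.asIdeal := d.2
  have hvd : v.valuation K (algebraMap (𝓞 K) K d) = 1 :=
    (v.valuation_eq_one_iff_notMem).2 hd
  have hn : n ∉ v.asIdeal := by
    rw [← v.valuation_eq_one_iff_notMem (K := K), ← hnd, map_mul, hvx, hvd, one_mul]
  have hd0 : algebraMap (𝓞 K) K d ≠ 0 := by
    intro h0; rw [h0, map_zero] at hvd; exact zero_ne_one hvd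
  refine ⟨π ^ m * algebraMap (𝓞 K) K d, n * (d : 𝓞 K) ^ (p - 1),
    mul_ne_zero (zpow_ne_zero _ hπ0) hd0, ?_, ?_⟩
  · intro hmem
    rcases v.isPrime.mem_or_mem hmem with h1 | h1
    · exact hn h1
    · exact hd (v.isPrime.mem_of_pow_mem _ h1)
  · rw [mul_pow, ← mul_assoc, ← hx, map_mul, map_pow, ← hnd]
    obtain ⟨q, rfl⟩ : ∃ q, p = q + 1 := ⟨p - 1, by omega⟩
    simp only [Nat.add_sub_cancel]
    ring

/-! ### Main theorems -/

/-- **Kummer extensions, unramified direction.**  `ζ ∈ K` a primitive `p`-th root of unity,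
`α ∈ L` with `α ^ p = a ∈ K` generating `L/K` (an automorphism fixing `α` is trivial),
`v` a place of `K` with `p ∉ v` and `p ∣ v(a)`: then `L/K` is unramified above `v`. -/
theorem unramAt_of_pDvdVal {p : ℕ} (hp : p.Prime) {ζ : K} (hζ : IsPrimitiveRoot ζ p)
    {a : K} {α : L} (hα : α ^ p = algebraMap K L a)
    (hgen : ∀ σ : L ≃ₐ[K] L, σ α = α → σ = 1)
    (v : HeightOneSpectrum (𝓞 K)) (hpv : (p : 𝓞 K) ∉ v.asIdeal) (hdvd : PDvdVal p v a) :
    UnramAt K L v.asIdeal := by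
  obtain ⟨c, u, hc, hu, hcu⟩ := exists_unit_form hp.pos v hdvd
  -- the integral generator
  set b : L := α * algebraMap K L c with hb
  have hbp : b ^ p = algebraMap K L (algebraMap (𝓞 K) K u) := by
    rw [hb, mul_pow, hα, ← map_pow, ← map_mul, hcu]
  have hbint : IsIntegral ℤ b := by
    apply IsIntegral.of_pow hp.pos
    rw [hbp, ← IsScalarTower.algebraMap_apply (𝓞 K) K L]
    exact (RingOfIntegers.isIntegral u).algebraMap
  obtain ⟨β, hβ'⟩ : ∃ β : 𝓞 L, algebraMap (𝓞 L) L β = b := ⟨⟨b, hbint⟩, rfl⟩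
  have hβ : β ^ p = algebraMap (𝓞 K) (𝓞 L) u := by
    apply RingOfIntegers.coe_injective
    rw [map_pow, hβ', hbp, ← IsScalarTower.algebraMap_apply (𝓞 K) (𝓞 L) L,
      IsScalarTower.algebraMap_apply (𝓞 K) K L]
  have hc' : algebraMap K L c ≠ 0 := by simpa using hc
  have hgen' : ∀ σ : L ≃ₐ[K] L,
      σ (algebraMap (𝓞 L) L β) = algebraMap (𝓞 L) L β → σ = 1 := by
    intro σ hσ
    apply hgen
    rw [hβ', hb, map_mul, σ.commutes] at hσ
    exact mul_right_cancel₀ hc' hσ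
  intro Q hQ hQv σ hσ
  exact eq_one_of_mem_inertia_of_unit_root hp hζ β hgen' u hβ v.asIdeal Q hu hpv σ hσ

/-- Variant of `unramAt_of_pDvdVal` with the generation hypothesis `K[α] = ⊤`. -/
theorem unramAt_of_pDvdVal_of_adjoin {p : ℕ} (hp : p.Prime) {ζ : K} (hζ : IsPrimitiveRoot ζ p)
    {a : K} {α : L} (hα : α ^ p = algebraMap K L a) (hgen : Algebra.adjoin K {α} = ⊤)
    (v : HeightOneSpectrum (𝓞 K)) (hpv : (p : 𝓞 K) ∉ v.asIdeal) (hdvd : PDvdVal p v a) :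
    UnramAt K L v.asIdeal :=
  unramAt_of_pDvdVal hp hζ hα (fun σ h => eq_one_of_fix_gen hgen σ h) v hpv hdvd

/-- **Kummer extensions, ramified direction** (contrapositive form).  `L/K` Galois, `α ∈ L` with
`α ^ p = a`, `a ≠ 0`, `p ≠ 0`.  If `L/K` is unramified above `v` then `p ∣ v(a)`. -/
theorem pDvdVal_of_unramAt [IsGalois K L] {p : ℕ} (hp : p ≠ 0) {a : K} (ha : a ≠ 0) {α : L}
    (hα : α ^ p = algebraMap K L a) (v : HeightOneSpectrum (𝓞 K))
    (h : UnramAt K L v.asIdeal) : PDvdVal p v a := by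
  have : v.asIdeal.IsMaximal := v.isMaximal
  obtain ⟨Q, hQ, hQv⟩ := Ideal.exists_maximal_ideal_liesOver_of_isIntegral (S := 𝓞 L) v.asIdeal
  have hQ0 : Q ≠ ⊥ := Ideal.ne_bot_of_liesOver_of_ne_bot v.ne_bot Q
  let w : HeightOneSpectrum (𝓞 L) := ⟨Q, hQ.isPrime, hQ0⟩
  have : w.asIdeal.LiesOver v.asIdeal := hQv
  have hI : Nat.card (Q.inertia (L ≃ₐ[K] L)) = 1 := by
    rw [Nat.card_eq_one_iff_unique]
    refine ⟨⟨fun x y => ?_⟩, ⟨1⟩⟩
    ext1
    rw [h Q hQ.isPrime hQv x.1 x.2, h Q hQ.isPrime hQv y.1 y.2]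
  have he : v.asIdeal.ramificationIdx' w.asIdeal = 1 := by
    rw [Ideal.ramificationIdx'_eq_ramificationIdx',
      ← Ideal.ramificationIdxIn_eq_ramificationIdx v.asIdeal Q (L ≃ₐ[K] L),
      ← Ideal.card_inertia_eq_ramificationIdxIn (G := L ≃ₐ[K] L) v.asIdeal Q, hI]
    intro hbot
    exact v.ne_bot ((Ideal.map_eq_bot_iff_of_injective
      (RingOfIntegers.algebraMap.injective K L)).1 hbot)
  have hval := v.valuation_liesOver L w a
  rw [he, pow_one, ← hα, map_pow] at hval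
  have hα0 : α ≠ 0 := by
    intro h0; rw [h0, zero_pow hp, eq_comm, map_eq_zero] at hα
    exact ha hα
  have hw0 : w.valuation L α ≠ 0 := by simpa using hα0
  refine ⟨WithZero.log (w.valuation L α), ?_⟩
  rw [hval, ← WithZero.exp_log hw0, ← WithZero.exp_nsmul]
  simp

/-- **Kummer ramification criterion** at a place `v ∤ p`: `K(a^{1/p})/K` is unramified above `v`
iff `p ∣ v(a)`. -/
theorem unramAt_iff_pDvdVal [IsGalois K L] {p : ℕ} (hp : p.Prime) {ζ : K}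
    (hζ : IsPrimitiveRoot ζ p) {a : K} (ha : a ≠ 0) {α : L} (hα : α ^ p = algebraMap K L a)
    (hgen : ∀ σ : L ≃ₐ[K] L, σ α = α → σ = 1)
    (v : HeightOneSpectrum (𝓞 K)) (hpv : (p : 𝓞 K) ∉ v.asIdeal) :
    UnramAt K L v.asIdeal ↔ PDvdVal p v a :=
  ⟨pDvdVal_of_unramAt hp.ne_zero ha hα v, unramAt_of_pDvdVal hp hζ hα hgen v hpv⟩

/-- Global unramifiedness (the definition `Fermat.Agent.S14.Unram K L`, unfolded) is
unramifiedness above every finite place of `K`. -/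
theorem forall_inertia_trivial_iff_forall_unramAt :
    (∀ Q : Ideal (𝓞 L), Q.IsPrime → Q ≠ ⊥ →
      ∀ σ : L ≃ₐ[K] L, σ ∈ Q.inertia (L ≃ₐ[K] L) → σ = 1) ↔
    ∀ v : HeightOneSpectrum (𝓞 K), UnramAt K L v.asIdeal := by
  constructor
  · intro h v Q hQ hQv σ hσ
    exact h Q hQ (Ideal.ne_bot_of_liesOver_of_ne_bot v.ne_bot Q) σ hσ
  · intro h Q hQ hQ0 σ hσ
    have hP : (Q.under (𝓞 K)).IsPrime := Ideal.IsPrime.under (𝓞 K) Q
    have hP0 : Q.under (𝓞 K) ≠ ⊥ := by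
      intro hbot
      apply hQ0
      exact Ideal.eq_bot_of_comap_eq_bot (R := 𝓞 K) hbot
    exact h ⟨Q.under (𝓞 K), hP, hP0⟩ Q hQ ⟨rfl⟩ σ hσ

end Fermat.Agent.S55.KummerRam
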