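/-
S55 / local class formation (helper59): the ABSTRACT local norm index.

`X` is an abelian group written additively (think `X = Additive Eˣ` for a local field `E` with a
cyclic group `G = ⟨σ⟩` of order `n` of automorphisms, `K = E^G`), `D = σ - 1`, `N = 1 + σ + ⋯ +
σ^(n-1)`, `ord : X →+ ℤ` the normalised valuation of `E` (surjective, `G`-invariant), `U = ker ord`
the units.  Hypotheses: Hilbert 90 (`ker N ⊆ im D`) and the existence of a `G`-stable subgroup
`V ≤ U` of finite index which is cohomologically trivial in the two Tate degrees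
(`V ∩ ker D = N V`, `V ∩ ker N = D V`).

Conclusion (`normIndex_eq`): `[ker D : N X] = n`, i.e. `[Kˣ : N_{E/K} Eˣ] = [E : K]`.

Also `unitNormIndex_eq`: `[U ∩ ker D : N U] = [ℤ : ord (ker D)]`, i.e. `[U_K : N U_E] = e`.
-/
import Mathlib
import Fermat.Agent.S14.HerbrandPrime

set_option autoImplicit false

namespace Fermat.Agent.S55.LocalNormIndex

open Fermat.Agent.S14.HerbrandPrime

variable {X : Type*} [AddCommGroup X]

section

variable (D N : X →+ X) (ord : X →+ ℤ)

/-- `H¹(G, U) ≅ ℤ/e`: `[U ∩ ker N : D U] = [ℤ : ord (ker D)]`. -/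
theorem qa_N_D_units (hND : ∀ x, N (D x) = 0) (hord : Function.Surjective ord)
    (hordD : ∀ x, ord (D x) = 0) (h90 : ∀ x, N x = 0 → ∃ y, D y = x) :
    qa N D ord.ker = (D.ker.map ord).index := by
  set U := ord.ker with hU
  set P := D.ker.map ord with hP
  set XP := P.comap ord with hXP
  -- `U ∩ ker N = ker N = D X`
  have h1 : U ⊓ N.ker = (⊤ : AddSubgroup X).map D := by
    ext x
    constructor
    · rintro ⟨-, hx⟩
      obtain ⟨y, rfl⟩ := h90 x hx
      exact ⟨y, trivial, rfl⟩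
    · rintro ⟨y, -, rfl⟩
      exact ⟨hordD y, hND y⟩
  -- `D U = D XP`
  have h2 : U.map D = XP.map D := by
    apply le_antisymm
    · apply AddSubgroup.map_mono
      intro x hx
      change ord x ∈ P
      rw [show ord x = 0 from hx]
      exact zero_mem _
    · rintro _ ⟨x, hx, rfl⟩
      obtain ⟨c, hc, hcx⟩ := (hx : ord x ∈ P)
      refine ⟨x - c, ?_, ?_⟩
      · change ord (x - c) = 0
        rw [map_sub, hcx, sub_self]
      · rw [map_sub, show D c = 0 from hc, sub_zero]
  have h3 := relIndex_eq_map_mul_ker D (le_top : XP ≤ ⊤)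
  have h4 : XP ⊓ D.ker = ⊤ ⊓ D.ker := by
    rw [top_inf_eq, inf_eq_right]
    intro c hc
    exact ⟨c, hc, rfl⟩
  rw [h4, AddSubgroup.relIndex_self, mul_one, AddSubgroup.relIndex_top_right] at h3
  unfold qa
  rw [h1, h2, ← h3, hXP, AddSubgroup.index_comap_of_surjective _ hord]

end

section

variable (n : ℕ) (D N : X →+ X) (ord : X →+ ℤ)

/-- `[U_K : N U_E] = e`: `[U ∩ ker D : N U] = [ℤ : ord (ker D)]`. -/
theorem unitNormIndex_eq (hDN : ∀ x, D (N x) = 0) (hND : ∀ x, N (D x) = 0)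
    (hord : Function.Surjective ord) (hordD : ∀ x, ord (D x) = 0)
    (hordN : ∀ x, ord (N x) = n * ord x)
    (h90 : ∀ x, N x = 0 → ∃ y, D y = x)
    (V : AddSubgroup X) (hVU : V ≤ ord.ker) (hVI : V.relIndex ord.ker ≠ 0)
    (hDV : V.map D ≤ V) (hNV : V.map N ≤ V) (hV0 : qa D N V = 1) (hV1 : qa N D V = 1) :
    qa D N ord.ker = (D.ker.map ord).index := by
  have hDU : ord.ker.map D ≤ ord.ker := by
    rintro _ ⟨x, -, rfl⟩
    exact hordD x
  have hNU : ord.ker.map N ≤ ord.ker := by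
    rintro _ ⟨x, hx, rfl⟩
    change ord (N x) = 0
    rw [hordN, show ord x = 0 from hx, mul_zero]
  have h := qa_mul_qa_eq D N hDN hND hVU hDV hNV hDU hNU hVI
  rw [hV0, hV1, mul_one, one_mul] at h
  rw [h]
  exact qa_N_D_units D N ord hND hord hordD h90

/-- **Abstract local norm index**: `[ker D : N X] = n`, i.e. `[Kˣ : N Eˣ] = [E : K]` for a cyclic
extension of local fields. -/
theorem normIndex_eq (hn : n ≠ 0) (hDN : ∀ x, D (N x) = 0) (hND : ∀ x, N (D x) = 0)
    (hord : Function.Surjective ord) (hordD : ∀ x, ord (D x) = 0)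
    (hordN : ∀ x, ord (N x) = n * ord x)
    (h90 : ∀ x, N x = 0 → ∃ y, D y = x)
    (V : AddSubgroup X) (hVU : V ≤ ord.ker) (hVI : V.relIndex ord.ker ≠ 0)
    (hDV : V.map D ≤ V) (hNV : V.map N ≤ V) (hV0 : qa D N V = 1) (hV1 : qa N D V = 1) :
    ((⊤ : AddSubgroup X).map N).relIndex D.ker = n := by
  have hle : (⊤ : AddSubgroup X).map N ≤ D.ker := by
    rintro _ ⟨x, -, rfl⟩
    exact hDN x
  have h := relIndex_eq_map_mul_ker ord hle
  -- the image of `N X` under `ord`
  have h1 : ((⊤ : AddSubgroup X).map N).map ord = AddSubgroup.zmultiples (n : ℤ) := by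
    ext z
    rw [AddSubgroup.mem_zmultiples_iff]
    constructor
    · rintro ⟨_, ⟨x, -, rfl⟩, rfl⟩
      exact ⟨ord x, by rw [hordN, smul_eq_mul, mul_comm]⟩
    · rintro ⟨k, rfl⟩
      obtain ⟨x, rfl⟩ := hord k
      exact ⟨N x, ⟨x, trivial, rfl⟩, by rw [hordN, smul_eq_mul, mul_comm]⟩
  -- `N X ∩ U = N U`
  have h2 : (⊤ : AddSubgroup X).map N ⊓ ord.ker = ord.ker.map N := by
    ext z
    constructor
    · rintro ⟨⟨x, -, rfl⟩, hx⟩
      refine ⟨x, ?_, rfl⟩
      have : ord (N x) = 0 := hx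
      rw [hordN] at this
      rcases mul_eq_zero.mp this with h0 | h0
      · exact absurd (by exact_mod_cast h0) hn
      · exact h0
    · rintro ⟨x, hx, rfl⟩
      refine ⟨⟨x, trivial, rfl⟩, ?_⟩
      change ord (N x) = 0
      rw [hordN, show ord x = 0 from hx, mul_zero]
  have h3 : D.ker ⊓ ord.ker = ord.ker ⊓ D.ker := inf_comm _ _
  rw [h1, h2, h3] at h
  have h4 : (ord.ker.map N).relIndex (ord.ker ⊓ D.ker) = (D.ker.map ord).index :=
    unitNormIndex_eq n D N ord hDN hND hord hordD hordN h90 V hVU hVI hDV hNV hV0 hV1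
  rw [h4] at h
  have h5 : AddSubgroup.zmultiples (n : ℤ) ≤ D.ker.map ord := by
    rw [← h1]
    exact AddSubgroup.map_mono hle
  rw [h, AddSubgroup.relIndex_mul_index h5, Int.index_zmultiples, Int.natAbs_natCast]

end

end Fermat.Agent.S55.LocalNormIndex
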