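/-
S55 bridge (helper92): Krasner-type facts about the Prelude's local objects
`padicEmbedding q`, `padicPlace q`, `localGaloisToGlobal q`.
-/
import Mathlib
import Fermat.Prelude.Def_GaloisRep_CompletionBridge
import Fermat.Prelude.Def_GroupCohomology_ContinuousH2
import Fermat.Prelude.Def_ExtEndgame_ProductionDatum

set_option autoImplicit false

open Polynomial IntermediateField
open scoped Pointwise

namespace Fermat.Agent.S55.KrasnerBridge

variable (q : ℕ) [Fact q.Prime]

local instance kbTowerQqPadic : IsScalarTower ℚ ℚ_[q] (PadicAlgCl q) :=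
  IsScalarTower.of_algebraMap_eq' (Subsingleton.elim _ _)

/-- Elements of `PadicAlgCl q` integral over `ℚ` come from `ℚ̄`. -/
theorem mem_range_of_isIntegral {β : PadicAlgCl q} (hβ : IsIntegral ℚ β) :
    β ∈ Set.range (padicEmbedding q) := by
  have hs : ((minpoly ℚ β).map (algebraMap ℚ (AlgebraicClosure ℚ))).Splits :=
    IsAlgClosed.splits _
  have himg := hs.image_rootSet (padicEmbedding q)
  have hβ' : β ∈ (minpoly ℚ β).rootSet (PadicAlgCl q) := by
    rw [mem_rootSet]
    exact ⟨minpoly.ne_zero hβ, minpoly.aeval _ _⟩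
  rw [← himg] at hβ'
  obtain ⟨α, -, rfl⟩ := hβ'
  exact ⟨α, rfl⟩

/-- (K1) `ℚ̄` is dense in `PadicAlgCl q`: metric form. -/
theorem exists_norm_sub_padicEmbedding_lt (x : PadicAlgCl q) {ε : ℝ} (hε : 0 < ε) :
    ∃ α : AlgebraicClosure ℚ, ‖x - padicEmbedding q α‖ < ε := by
  have hxint : IsIntegral ℚ_[q] x := (PadicAlgCl.isAlgebraic q).isAlgebraic x |>.isIntegral
  set f : ℚ_[q][X] := minpoly ℚ_[q] x with hf
  have hfm : f.Monic := minpoly.monic hxint
  have hfx : aeval x f = 0 := minpoly.aeval _ _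
  set n : ℕ := f.natDegree with hn
  have hnpos : 0 < n := minpoly.natDegree_pos hxint
  set c : ℝ := max ‖x‖ 1 with hc
  have hc1 : 1 ≤ c := le_max_right _ _
  have hcpos : 0 < c := lt_of_lt_of_le one_pos hc1
  have hn1 : (0 : ℝ) < (n : ℝ) + 1 := by positivity
  set ε' : ℝ := (ε / c) ^ n / (2 * ((n : ℝ) + 1)) with hε'
  have hε'pos : 0 < ε' := by positivity
  have hdense : DenseRange (algebraMap ℚ ℚ_[q]) := by
    have : (algebraMap ℚ ℚ_[q] : ℚ → ℚ_[q]) = ((↑) : ℚ → ℚ_[q]) := by
      funext r; exact eq_ratCast _ r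
    rw [this]; exact Padic.denseRange_ratCast q
  obtain ⟨g₀, hg₀m, hg₀deg, hg₀c⟩ :=
    Polynomial.exists_monic_and_natDegree_eq_and_norm_map_algebraMap_coeff_sub_lt hdense hfm hε'pos
  set g : ℚ_[q][X] := g₀.map (algebraMap ℚ ℚ_[q]) with hg
  have hgm : g.Monic := hg₀m.map _
  have hgdeg : g.natDegree = f.natDegree := by
    rw [hg, hg₀m.natDegree_map, ← hg₀deg]
  obtain ⟨b, hb, hbx⟩ := Polynomial.exists_aroots_norm_sub_lt_of_norm_coeff_sub_lt
    (K := ℚ_[q]) (L := PadicAlgCl q) hε'pos hfx hfm hgm hgdeg hg₀c (IsAlgClosed.splits _)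
  have hbroot : aeval b g₀ = 0 := by
    have h1 : aeval b g = 0 := (mem_aroots.1 hb).2
    rwa [hg, aeval_map_algebraMap] at h1
  obtain ⟨α, rfl⟩ := mem_range_of_isIntegral q (β := b) ⟨g₀, hg₀m, hbroot⟩
  refine ⟨α, lt_of_lt_of_le hbx ?_⟩
  -- the bound
  have hkey : ((n : ℝ) + 1) * ε' = (ε / c) ^ n / 2 := by
    rw [hε']; field_simp
  have hle : (((f.natDegree : ℝ) + 1) * ε') ^ ((f.natDegree : ℝ))⁻¹ ≤ ε / c := by
    rw [← hn, hkey]
    have h0 : 0 ≤ ε / c := by positivity
    calc ((ε / c) ^ n / 2) ^ ((n : ℝ))⁻¹ ≤ ((ε / c) ^ n) ^ ((n : ℝ))⁻¹ := by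
          apply Real.rpow_le_rpow (by positivity) (by
            have : 0 ≤ (ε / c) ^ n := by positivity
            linarith) (by positivity)
      _ = ε / c := by
          rw [← Real.rpow_natCast, ← Real.rpow_mul h0, mul_inv_cancel₀ (by positivity),
            Real.rpow_one]
  calc (((f.natDegree : ℝ) + 1) * ε') ^ ((f.natDegree : ℝ))⁻¹ * max ‖x‖ 1
      ≤ ε / c * c := by
        apply mul_le_mul_of_nonneg_right hle hcpos.le
    _ = ε := by field_simp

/-- (K1) `ℚ̄` is dense in `PadicAlgCl q`. -/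
theorem denseRange_padicEmbedding : DenseRange (padicEmbedding q) := by
  intro x
  rw [Metric.mem_closure_range_iff]
  intro ε hε
  obtain ⟨α, hα⟩ := exists_norm_sub_padicEmbedding_lt q x hε
  exact ⟨α, by rwa [dist_eq_norm]⟩

/-- (K2) Krasner: every `x : PadicAlgCl q` lies in `ℚ_q(ι α)` for some `α ∈ ℚ̄`. -/
theorem exists_mem_adjoin_padicEmbedding (x : PadicAlgCl q) :
    ∃ α : AlgebraicClosure ℚ, x ∈ ℚ_[q]⟮padicEmbedding q α⟯ := by
  classical
  have hxint : IsIntegral ℚ_[q] x := (PadicAlgCl.isAlgebraic q).isAlgebraic x |>.isIntegral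
  let S : Finset (PadicAlgCl q) :=
    {x' ∈ ((minpoly ℚ_[q] x).rootSet (PadicAlgCl q)).toFinset | x' ≠ x}
  let T : Finset ℝ := insert 1 (S.image fun x' => ‖x - x'‖)
  have hT : T.Nonempty := Finset.insert_nonempty _ _
  set δ : ℝ := T.min' hT with hδ
  have hδpos : 0 < δ := by
    have hmem : δ ∈ T := Finset.min'_mem T hT
    rcases Finset.mem_insert.1 hmem with h | h
    · rw [h]; exact one_pos
    · obtain ⟨x', hx', hx'e⟩ := Finset.mem_image.1 h
      rw [← hx'e, norm_pos_iff, sub_ne_zero]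
      exact fun h => (Finset.mem_filter.1 hx').2 h.symm
  have hδle : ∀ x' : PadicAlgCl q, IsConjRoot ℚ_[q] x x' → x ≠ x' → δ ≤ ‖x - x'‖ := by
    intro x' hconj hne
    apply Finset.min'_le
    apply Finset.mem_insert_of_mem
    apply Finset.mem_image_of_mem
    rw [Finset.mem_filter, Set.mem_toFinset, ← isConjRoot_iff_mem_minpoly_rootSet hxint]
    exact ⟨hconj, hne.symm⟩
  obtain ⟨α, hα⟩ := exists_norm_sub_padicEmbedding_lt q x hδpos
  refine ⟨α, ?_⟩
  have hyint : IsIntegral ℚ_[q] (padicEmbedding q α) :=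
    (PadicAlgCl.isAlgebraic q).isAlgebraic _ |>.isIntegral
  exact IsKrasner.krasner (K := ℚ_[q]) (L := PadicAlgCl q)
    (minpoly.irreducible hxint).separable (IsAlgClosed.splits _) hyint
    (fun x' hconj hne => lt_of_lt_of_le hα (hδle x' hconj hne))

/-- An automorphism of `PadicAlgCl q` over `ℚ_q` fixing `ι α` fixes `ℚ_q(ι α)` pointwise. -/
theorem apply_eq_of_mem_adjoin (τ : PadicAlgCl q ≃ₐ[ℚ_[q]] PadicAlgCl q) {y x : PadicAlgCl q}
    (hy : τ y = y) (hx : x ∈ ℚ_[q]⟮y⟯) : τ x = x := by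
  obtain ⟨r, s, rfl⟩ := (IntermediateField.mem_adjoin_simple_iff _ _).1 hx
  rw [map_div₀, ← Polynomial.aeval_algHom_apply, ← Polynomial.aeval_algHom_apply, hy]

/-- (K3) `localGaloisToGlobal q` is injective. -/
theorem localGaloisToGlobal_injective : Function.Injective (localGaloisToGlobal q) := by
  rw [injective_iff_map_eq_one]
  intro τ hτ
  ext x
  obtain ⟨α, hα⟩ := exists_mem_adjoin_padicEmbedding q x
  have hfix : τ (padicEmbedding q α) = padicEmbedding q α := by
    rw [← padicEmbedding_localGaloisToGlobal, hτ]; rfl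
  exact apply_eq_of_mem_adjoin q τ hfix hα

/-- the absolute value `α ↦ ‖ι α‖` on `ℚ̄`. -/
noncomputable def absQbar : AbsoluteValue (AlgebraicClosure ℚ) ℝ :=
  (NormedField.toAbsoluteValue (PadicAlgCl q)).comp (padicEmbedding q).injective

theorem absQbar_apply (α : AlgebraicClosure ℚ) : absQbar q α = ‖padicEmbedding q α‖ := rfl

theorem mem_padicPlace_iff_absQbar_le {α : AlgebraicClosure ℚ} :
    α ∈ padicPlace q ↔ absQbar q α ≤ 1 := by
  rw [mem_padicPlace_iff, absQbar_apply, ← coe_nnnorm, ← NNReal.coe_one, NNReal.coe_le_coe]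

theorem mem_padicPlace_map_iff {σ : AlgebraicClosure ℚ ≃ₐ[ℚ] AlgebraicClosure ℚ}
    (hσ : σ ∈ (padicPlace q).decompositionSubgroup ℚ) (α : AlgebraicClosure ℚ) :
    σ α ∈ padicPlace q ↔ α ∈ padicPlace q := by
  have h : σ • padicPlace q = padicPlace q := MulAction.mem_stabilizer_iff.1 hσ
  constructor
  · intro h1
    have : σ⁻¹ • σ α ∈ padicPlace q := by
      have h2 : σ α ∈ σ • padicPlace q := by rw [h]; exact h1
      exact ValuationSubring.mem_pointwise_smul_iff_inv_smul_mem.1 h2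
    simpa [AlgEquiv.smul_def] using this
  · intro h1
    rw [← h]
    rw [ValuationSubring.mem_pointwise_smul_iff_inv_smul_mem]
    simpa [AlgEquiv.smul_def] using h1

theorem absQbar_natCast_q : absQbar q (q : AlgebraicClosure ℚ) = (q : ℝ)⁻¹ := by
  rw [absQbar_apply, map_natCast]
  have h : ((q : ℕ) : PadicAlgCl q) = algebraMap ℚ_[q] (PadicAlgCl q) (q : ℚ_[q]) := by
    rw [map_natCast]
  rw [h]
  have := PadicAlgCl.norm_extends q (q : ℚ_[q])
  rw [this, Padic.norm_p]

/-- Elements of the decomposition group of `padicPlace q` preserve the `q`-adic norm on `ℚ̄`. -/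
theorem norm_padicEmbedding_map {σ : AlgebraicClosure ℚ ≃ₐ[ℚ] AlgebraicClosure ℚ}
    (hσ : σ ∈ (padicPlace q).decompositionSubgroup ℚ) (α : AlgebraicClosure ℚ) :
    ‖padicEmbedding q (σ α)‖ = ‖padicEmbedding q α‖ := by
  set v := absQbar q with hv
  let w : AbsoluteValue (AlgebraicClosure ℚ) ℝ :=
    v.comp (f := (σ : AlgebraicClosure ℚ →+* AlgebraicClosure ℚ)) σ.injective
  have hw : ∀ x, w x = v (σ x) := fun x => rfl
  have hle : ∀ x, v x ≤ 1 ↔ w x ≤ 1 := by
    intro x
    rw [hw, ← mem_padicPlace_iff_absQbar_le, ← mem_padicPlace_iff_absQbar_le,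
      mem_padicPlace_map_iff q hσ]
  have hlt : ∀ x, v x < 1 ↔ w x < 1 := by
    intro x
    rcases eq_or_ne x 0 with rfl | hx
    · simp
    · have h1 := hle x⁻¹
      rw [map_inv₀, map_inv₀, inv_le_one₀ (v.pos hx), inv_le_one₀ (w.pos hx)] at h1
      rw [← not_le, ← not_le, h1]
  have heq : v.IsEquiv w := AbsoluteValue.isEquiv_iff_lt_one_iff.2 hlt
  obtain ⟨c, hc, hcw⟩ := AbsoluteValue.isEquiv_iff_exists_rpow_eq.1 heq
  have hq1 : v (q : AlgebraicClosure ℚ) = (q : ℝ)⁻¹ := absQbar_natCast_q q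
  have hq2 : w (q : AlgebraicClosure ℚ) = (q : ℝ)⁻¹ := by
    rw [hw, map_natCast, hq1]
  have hqgt : (1 : ℝ) < q := by exact_mod_cast (Fact.out : q.Prime).one_lt
  have hc1 : c = 1 := by
    have h2 := congrFun hcw (q : AlgebraicClosure ℚ)
    simp only [hq1, hq2] at h2
    have hpos : (0 : ℝ) < (q : ℝ)⁻¹ := by positivity
    have hlog : Real.log ((q : ℝ)⁻¹) ≠ 0 := by
      rw [Real.log_inv, neg_ne_zero]
      exact (Real.log_pos hqgt).ne'
    have h3 := congrArg Real.log h2
    rw [Real.log_rpow hpos] at h3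
    have : c * Real.log ((q : ℝ)⁻¹) = 1 * Real.log ((q : ℝ)⁻¹) := by rw [h3, one_mul]
    exact mul_right_cancel₀ hlog this
  have h4 := congrFun hcw α
  simp only [hc1, Real.rpow_one] at h4
  change w α = v α
  exact h4.symm

open scoped TensorProduct

/-- the multiplication map `ℚ_q ⊗ ℚ̄ → PadicAlgCl q`. -/
noncomputable def tensorToPadic : ℚ_[q] ⊗[ℚ] AlgebraicClosure ℚ →ₐ[ℚ_[q]] PadicAlgCl q :=
  Algebra.TensorProduct.lift (Algebra.ofId ℚ_[q] (PadicAlgCl q)) (padicEmbedding q)
    (fun _ _ => Commute.all _ _)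

theorem tensorToPadic_tmul (a : ℚ_[q]) (α : AlgebraicClosure ℚ) :
    tensorToPadic q (a ⊗ₜ α) = algebraMap ℚ_[q] (PadicAlgCl q) a * padicEmbedding q α := by
  simp [tensorToPadic, Algebra.ofId_apply]

theorem tensorToPadic_surjective : Function.Surjective (tensorToPadic q) := by
  intro x
  obtain ⟨α, hα⟩ := exists_mem_adjoin_padicEmbedding q x
  have hint : IsAlgebraic ℚ_[q] (padicEmbedding q α) :=
    (PadicAlgCl.isAlgebraic q).isAlgebraic _
  have h1 : x ∈ Algebra.adjoin ℚ_[q] {padicEmbedding q α} := by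
    rw [← IntermediateField.adjoin_simple_toSubalgebra_of_isAlgebraic hint]
    exact hα
  have h2 : Algebra.adjoin ℚ_[q] {padicEmbedding q α} ≤ (tensorToPadic q).range := by
    rw [Algebra.adjoin_le_iff]
    rintro y rfl
    exact ⟨1 ⊗ₜ α, by simp [tensorToPadic_tmul]⟩
  exact h2 h1

variable (σ : AlgebraicClosure ℚ ≃ₐ[ℚ] AlgebraicClosure ℚ)

/-- the `σ`-twisted multiplication map `a ⊗ α ↦ a · ι (σ α)`. -/
noncomputable def tensorToPadicTwist : ℚ_[q] ⊗[ℚ] AlgebraicClosure ℚ →ₐ[ℚ_[q]] PadicAlgCl q :=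
  Algebra.TensorProduct.lift (Algebra.ofId ℚ_[q] (PadicAlgCl q))
    ((padicEmbedding q).comp (σ : AlgebraicClosure ℚ →ₐ[ℚ] AlgebraicClosure ℚ))
    (fun _ _ => Commute.all _ _)

theorem tensorToPadicTwist_tmul (a : ℚ_[q]) (α : AlgebraicClosure ℚ) :
    tensorToPadicTwist q σ (a ⊗ₜ α) =
      algebraMap ℚ_[q] (PadicAlgCl q) a * padicEmbedding q (σ α) := by
  simp [tensorToPadicTwist, Algebra.ofId_apply]

theorem tensorToPadicTwist_surjective : Function.Surjective (tensorToPadicTwist q σ) := by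
  intro x
  obtain ⟨α, hα⟩ := exists_mem_adjoin_padicEmbedding q x
  have hint : IsAlgebraic ℚ_[q] (padicEmbedding q α) :=
    (PadicAlgCl.isAlgebraic q).isAlgebraic _
  have h1 : x ∈ Algebra.adjoin ℚ_[q] {padicEmbedding q α} := by
    rw [← IntermediateField.adjoin_simple_toSubalgebra_of_isAlgebraic hint]
    exact hα
  have h2 : Algebra.adjoin ℚ_[q] {padicEmbedding q α} ≤ (tensorToPadicTwist q σ).range := by
    rw [Algebra.adjoin_le_iff]
    rintro y rfl
    exact ⟨1 ⊗ₜ σ.symm α, by simp [tensorToPadicTwist_tmul]⟩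
  exact h2 h1

theorem exists_approx (hσ : σ ∈ (padicPlace q).decompositionSubgroup ℚ)
    (r : ℚ_[q] ⊗[ℚ] AlgebraicClosure ℚ) :
    ∀ ε : ℝ, 0 < ε → ∃ β : AlgebraicClosure ℚ,
      ‖tensorToPadic q r - padicEmbedding q β‖ < ε ∧
      ‖tensorToPadicTwist q σ r - padicEmbedding q (σ β)‖ < ε := by
  induction r using TensorProduct.induction_on with
  | zero =>
    intro ε hε
    exact ⟨0, by simpa using hε, by simpa using hε⟩
  | tmul a α =>
    intro ε hε
    set c : ℝ := ‖padicEmbedding q α‖ + 1 with hc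
    have hcpos : 0 < c := by positivity
    obtain ⟨b, hb⟩ := Padic.rat_dense q a (ε := ε / c) (by positivity)
    refine ⟨algebraMap ℚ (AlgebraicClosure ℚ) b * α, ?_, ?_⟩
    · rw [tensorToPadic_tmul, map_mul, AlgHom.commutes, ← sub_mul, norm_mul]
      have h1 : algebraMap ℚ_[q] (PadicAlgCl q) a - algebraMap ℚ (PadicAlgCl q) b =
          algebraMap ℚ_[q] (PadicAlgCl q) (a - (b : ℚ_[q])) := by
        rw [map_sub, ← eq_ratCast (algebraMap ℚ ℚ_[q]) b, ← IsScalarTower.algebraMap_apply]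
      rw [h1]
      have h2 : ‖algebraMap ℚ_[q] (PadicAlgCl q) (a - (b : ℚ_[q]))‖ = ‖a - (b : ℚ_[q])‖ :=
        PadicAlgCl.norm_extends q _
      rw [h2]
      calc ‖a - (b : ℚ_[q])‖ * ‖padicEmbedding q α‖ ≤ ‖a - (b : ℚ_[q])‖ * c := by
            apply mul_le_mul_of_nonneg_left _ (norm_nonneg _)
            rw [hc]; linarith
        _ < ε / c * c := by
            apply mul_lt_mul_of_pos_right hb hcpos
        _ = ε := by field_simp
    · rw [tensorToPadicTwist_tmul, map_mul, AlgEquiv.commutes, map_mul, AlgHom.commutes,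
        ← sub_mul, norm_mul]
      have h1 : algebraMap ℚ_[q] (PadicAlgCl q) a - algebraMap ℚ (PadicAlgCl q) b =
          algebraMap ℚ_[q] (PadicAlgCl q) (a - (b : ℚ_[q])) := by
        rw [map_sub, ← eq_ratCast (algebraMap ℚ ℚ_[q]) b, ← IsScalarTower.algebraMap_apply]
      rw [h1]
      have h2 : ‖algebraMap ℚ_[q] (PadicAlgCl q) (a - (b : ℚ_[q]))‖ = ‖a - (b : ℚ_[q])‖ :=
        PadicAlgCl.norm_extends q _
      rw [h2, norm_padicEmbedding_map q hσ]
      calc ‖a - (b : ℚ_[q])‖ * ‖padicEmbedding q α‖ ≤ ‖a - (b : ℚ_[q])‖ * c := by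
            apply mul_le_mul_of_nonneg_left _ (norm_nonneg _)
            rw [hc]; linarith
        _ < ε / c * c := by
            apply mul_lt_mul_of_pos_right hb hcpos
        _ = ε := by field_simp
  | add r₁ r₂ h₁ h₂ =>
    intro ε hε
    obtain ⟨β₁, h11, h12⟩ := h₁ (ε / 2) (by positivity)
    obtain ⟨β₂, h21, h22⟩ := h₂ (ε / 2) (by positivity)
    refine ⟨β₁ + β₂, ?_, ?_⟩
    · rw [map_add, map_add, add_sub_add_comm]
      calc _ ≤ ‖tensorToPadic q r₁ - padicEmbedding q β₁‖ +
            ‖tensorToPadic q r₂ - padicEmbedding q β₂‖ := norm_add_le _ _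
        _ < ε / 2 + ε / 2 := add_lt_add h11 h21
        _ = ε := by ring
    · rw [map_add, map_add, map_add, add_sub_add_comm]
      calc _ ≤ ‖tensorToPadicTwist q σ r₁ - padicEmbedding q (σ β₁)‖ +
            ‖tensorToPadicTwist q σ r₂ - padicEmbedding q (σ β₂)‖ := norm_add_le _ _
        _ < ε / 2 + ε / 2 := add_lt_add h12 h22
        _ = ε := by ring

theorem norm_tensorToPadicTwist (hσ : σ ∈ (padicPlace q).decompositionSubgroup ℚ)
    (r : ℚ_[q] ⊗[ℚ] AlgebraicClosure ℚ) :
    ‖tensorToPadicTwist q σ r‖ = ‖tensorToPadic q r‖ := by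
  have key : ∀ ε : ℝ, 0 < ε → |‖tensorToPadicTwist q σ r‖ - ‖tensorToPadic q r‖| < 2 * ε := by
    intro ε hε
    obtain ⟨β, h1, h2⟩ := exists_approx q σ hσ r ε hε
    have h3 := abs_norm_sub_norm_le (tensorToPadic q r) (padicEmbedding q β)
    have h4 := abs_norm_sub_norm_le (tensorToPadicTwist q σ r) (padicEmbedding q (σ β))
    rw [norm_padicEmbedding_map q hσ] at h4
    rw [abs_lt] at *
    rw [abs_le] at h3 h4
    constructor <;> linarith
  by_contra hne
  have hpos : 0 < |‖tensorToPadicTwist q σ r‖ - ‖tensorToPadic q r‖| :=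
    abs_pos.2 (sub_ne_zero.2 hne)
  have := key (|‖tensorToPadicTwist q σ r‖ - ‖tensorToPadic q r‖| / 2) (by positivity)
  linarith

theorem ker_tensorToPadic_eq (hσ : σ ∈ (padicPlace q).decompositionSubgroup ℚ) :
    RingHom.ker (tensorToPadic q) = RingHom.ker (tensorToPadicTwist q σ) := by
  ext r
  rw [RingHom.mem_ker, RingHom.mem_ker, ← norm_eq_zero, ← norm_eq_zero (a := tensorToPadicTwist q σ r),
    norm_tensorToPadicTwist q σ hσ]

/-- the local automorphism attached to an element of the decomposition group. -/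
noncomputable def localLift (hσ : σ ∈ (padicPlace q).decompositionSubgroup ℚ) :
    PadicAlgCl q ≃ₐ[ℚ_[q]] PadicAlgCl q :=
  (Ideal.quotientKerAlgEquivOfSurjective (tensorToPadic_surjective q)).symm.trans
    ((Ideal.quotientEquivAlgOfEq ℚ_[q] (ker_tensorToPadic_eq q σ hσ)).trans
      (Ideal.quotientKerAlgEquivOfSurjective (tensorToPadicTwist_surjective q σ)))

theorem localLift_tensorToPadic (hσ : σ ∈ (padicPlace q).decompositionSubgroup ℚ)
    (r : ℚ_[q] ⊗[ℚ] AlgebraicClosure ℚ) :
    localLift q σ hσ (tensorToPadic q r) = tensorToPadicTwist q σ r := by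
  simp [localLift]

theorem localLift_padicEmbedding (hσ : σ ∈ (padicPlace q).decompositionSubgroup ℚ)
    (α : AlgebraicClosure ℚ) :
    localLift q σ hσ (padicEmbedding q α) = padicEmbedding q (σ α) := by
  have h1 : padicEmbedding q α = tensorToPadic q (1 ⊗ₜ α) := by simp [tensorToPadic_tmul]
  rw [h1, localLift_tensorToPadic, tensorToPadicTwist_tmul]; simp

theorem localGaloisToGlobal_localLift (hσ : σ ∈ (padicPlace q).decompositionSubgroup ℚ) :
    localGaloisToGlobal q (localLift q σ hσ) = σ := by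
  ext α
  have hinj : Function.Injective (padicEmbedding q) := (padicEmbedding q).injective
  apply hinj
  rw [padicEmbedding_localGaloisToGlobal, localLift_padicEmbedding]

/-- (K4) the image of the local Galois group is the decomposition group of `padicPlace q`. -/
theorem range_localGaloisToGlobal :
    (localGaloisToGlobal q).range = (padicPlace q).decompositionSubgroup ℚ := by
  ext σ
  constructor
  · rintro ⟨τ, rfl⟩
    exact localGaloisToGlobal_mem_decompositionSubgroup q τ
  · intro hσ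
    exact ⟨localLift q σ hσ, localGaloisToGlobal_localLift q σ hσ⟩

/-- an automorphism fixing a set of algebraic elements pointwise fixes the field they
generate pointwise. -/
theorem mem_fixingSubgroup_adjoin_iff (T : Set (PadicAlgCl q))
    (s : PadicAlgCl q ≃ₐ[ℚ_[q]] PadicAlgCl q) :
    s ∈ (IntermediateField.adjoin ℚ_[q] T).fixingSubgroup ↔ ∀ t ∈ T, s t = t := by
  rw [IntermediateField.mem_fixingSubgroup_iff]
  constructor
  · intro h t ht
    exact h t (IntermediateField.subset_adjoin _ _ ht)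
  · intro h x hx
    have halg : ∀ t ∈ T, IsAlgebraic ℚ_[q] t := fun t _ =>
      (PadicAlgCl.isAlgebraic q).isAlgebraic t
    have hx' : x ∈ Algebra.adjoin ℚ_[q] T := by
      rw [← IntermediateField.adjoin_toSubalgebra_of_isAlgebraic halg]
      exact hx
    have hle : Algebra.adjoin ℚ_[q] T ≤
        AlgHom.equalizer (s : PadicAlgCl q →ₐ[ℚ_[q]] PadicAlgCl q) (AlgHom.id _ _) := by
      rw [Algebra.adjoin_le_iff]
      intro t ht
      exact h t ht
    exact hle hx'

/-- (K5a) the preimage of a global open subgroup is a local open subgroup. -/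
theorem exists_local_level (F : IntermediateField ℚ (AlgebraicClosure ℚ))
    [FiniteDimensional ℚ F] :
    ∃ E : IntermediateField ℚ_[q] (PadicAlgCl q), FiniteDimensional ℚ_[q] E ∧
      ∀ s : PadicAlgCl q ≃ₐ[ℚ_[q]] PadicAlgCl q,
        s ∈ E.fixingSubgroup ↔ localGaloisToGlobal q s ∈ F.fixingSubgroup := by
  classical
  let b := Module.finBasis ℚ F
  let T : Set (PadicAlgCl q) := Set.range fun i => padicEmbedding q (b i : AlgebraicClosure ℚ)
  have : Finite T := Set.finite_range _
  refine ⟨IntermediateField.adjoin ℚ_[q] T,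
    IntermediateField.finiteDimensional_adjoin (fun t _ =>
      ((PadicAlgCl.isAlgebraic q).isAlgebraic t).isIntegral), fun s => ?_⟩
  rw [mem_fixingSubgroup_adjoin_iff, IntermediateField.mem_fixingSubgroup_iff]
  have hinj : Function.Injective (padicEmbedding q) := (padicEmbedding q).injective
  constructor
  · intro h x hx
    -- x is a ℚ-combination of the basis
    have hb : ∀ i, localGaloisToGlobal q s (b i : AlgebraicClosure ℚ) = b i := by
      intro i
      apply hinj
      rw [padicEmbedding_localGaloisToGlobal]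
      exact h _ ⟨i, rfl⟩
    have hL : (localGaloisToGlobal q s).toLinearMap ∘ₗ F.val.toLinearMap = F.val.toLinearMap :=
      b.ext fun i => by simpa using hb i
    have := LinearMap.congr_fun hL ⟨x, hx⟩
    simpa using this
  · rintro h t ⟨i, rfl⟩
    rw [← padicEmbedding_localGaloisToGlobal, h _ (b i).2]

/-- (K5b) every local open subgroup contains the preimage of a global open subgroup. -/
theorem exists_global_level (E : IntermediateField ℚ_[q] (PadicAlgCl q))
    [FiniteDimensional ℚ_[q] E] :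
    ∃ F : IntermediateField ℚ (AlgebraicClosure ℚ), FiniteDimensional ℚ F ∧
      ∀ s : PadicAlgCl q ≃ₐ[ℚ_[q]] PadicAlgCl q,
        localGaloisToGlobal q s ∈ F.fixingSubgroup → s ∈ E.fixingSubgroup := by
  classical
  let b := Module.finBasis ℚ_[q] E
  choose α hα using fun i => exists_mem_adjoin_padicEmbedding q (b i : PadicAlgCl q)
  let T : Set (AlgebraicClosure ℚ) := Set.range α
  have : Finite T := Set.finite_range _
  refine ⟨IntermediateField.adjoin ℚ T,
    IntermediateField.finiteDimensional_adjoin (fun t _ =>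
      ((AlgebraicClosure.isAlgebraic ℚ).isAlgebraic t).isIntegral), fun s hs => ?_⟩
  rw [IntermediateField.mem_fixingSubgroup_iff] at hs ⊢
  have hb : ∀ i, s (b i : PadicAlgCl q) = b i := by
    intro i
    have h1 : s (padicEmbedding q (α i)) = padicEmbedding q (α i) := by
      rw [← padicEmbedding_localGaloisToGlobal,
        hs _ (IntermediateField.subset_adjoin _ _ ⟨i, rfl⟩)]
    exact apply_eq_of_mem_adjoin q s h1 (hα i)
  intro x hx
  have hL : (s : PadicAlgCl q ≃ₐ[ℚ_[q]] PadicAlgCl q).toLinearMap ∘ₗ E.val.toLinearMap =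
      E.val.toLinearMap :=
    b.ext fun i => by simpa using hb i
  have := LinearMap.congr_fun hL ⟨x, hx⟩
  simpa using this

open groupCohomology in
/-- (K5) for the local Galois group, the Prelude's level-constancy (w.r.t. number fields) is the
same as invariance under an open subgroup for the Krull topology. One variable. -/
theorem isLevelConstant₁_iff {X : Type*} (f : (PadicAlgCl q ≃ₐ[ℚ_[q]] PadicAlgCl q) → X) :
    IsLevelConstant₁ (localGaloisToGlobal q) f ↔
      ∃ E : IntermediateField ℚ_[q] (PadicAlgCl q), FiniteDimensional ℚ_[q] E ∧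
        ∀ g s, s ∈ E.fixingSubgroup → f (g * s) = f g := by
  constructor
  · rintro ⟨F, hF, h⟩
    obtain ⟨E, hE, hEs⟩ := exists_local_level q F
    exact ⟨E, hE, fun g s hs => h g s ((hEs s).1 hs)⟩
  · rintro ⟨E, hE, h⟩
    obtain ⟨F, hF, hFs⟩ := exists_global_level q E
    exact ⟨F, hF, fun g s hs => h g s (hFs s hs)⟩

open groupCohomology in
/-- (K5) two variables. -/
theorem isLevelConstant₂_iff {X : Type*}
    (f : (PadicAlgCl q ≃ₐ[ℚ_[q]] PadicAlgCl q) × (PadicAlgCl q ≃ₐ[ℚ_[q]] PadicAlgCl q) → X) :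
    IsLevelConstant₂ (localGaloisToGlobal q) f ↔
      ∃ E : IntermediateField ℚ_[q] (PadicAlgCl q), FiniteDimensional ℚ_[q] E ∧
        ∀ g g' s s', s ∈ E.fixingSubgroup → s' ∈ E.fixingSubgroup →
          f (g * s, g' * s') = f (g, g') := by
  constructor
  · rintro ⟨F, hF, h⟩
    obtain ⟨E, hE, hEs⟩ := exists_local_level q F
    exact ⟨E, hE, fun g g' s s' hs hs' => h g g' s s' ((hEs s).1 hs) ((hEs s').1 hs')⟩
  · rintro ⟨E, hE, h⟩
    obtain ⟨F, hF, hFs⟩ := exists_global_level q E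
    exact ⟨F, hF, fun g g' s s' hs hs' => h g g' s s' (hFs s hs) (hFs s' hs')⟩

end Fermat.Agent.S55.KrasnerBridge

namespace Fermat.Agent.S55.KrasnerBridge

/-! ### Versions for `ExtCitation.primeLocalToGlobal` (indexing by `Nat.Primes`). -/

open ExtCitation groupCohomology

theorem factPrimeOfPrimes (q : Nat.Primes) : Fact (q : ℕ).Prime := ⟨q.2⟩

local instance instFactPrimeOfPrimes (q : Nat.Primes) : Fact (q : ℕ).Prime := factPrimeOfPrimes q

variable (q : Nat.Primes)

theorem primeLocalToGlobal_eq : primeLocalToGlobal q = localGaloisToGlobal (q : ℕ) := rfl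

theorem primeLocalPlace_eq : primeLocalPlace q = padicPlace (q : ℕ) := rfl

theorem primeLocalToGlobal_injective : Function.Injective (primeLocalToGlobal q) :=
  localGaloisToGlobal_injective (q : ℕ)

theorem range_primeLocalToGlobal :
    (primeLocalToGlobal q).range = (primeLocalPlace q).decompositionSubgroup ℚ :=
  range_localGaloisToGlobal (q : ℕ)

theorem isLevelConstant₁_primeLocal_iff {X : Type*} (f : primeLocalGaloisGroup q → X) :
    IsLevelConstant₁ (primeLocalToGlobal q) f ↔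
      ∃ E : IntermediateField ℚ_[(q : ℕ)] (PadicAlgCl (q : ℕ)),
        FiniteDimensional ℚ_[(q : ℕ)] E ∧
        ∀ g s : primeLocalGaloisGroup q,
          (show PadicAlgCl (q : ℕ) ≃ₐ[ℚ_[(q : ℕ)]] PadicAlgCl (q : ℕ) from s) ∈ E.fixingSubgroup →
            f (g * s) = f g :=
  isLevelConstant₁_iff (q : ℕ) f

theorem isLevelConstant₂_primeLocal_iff {X : Type*}
    (f : primeLocalGaloisGroup q × primeLocalGaloisGroup q → X) :
    IsLevelConstant₂ (primeLocalToGlobal q) f ↔
      ∃ E : IntermediateField ℚ_[(q : ℕ)] (PadicAlgCl (q : ℕ)),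
        FiniteDimensional ℚ_[(q : ℕ)] E ∧
        ∀ g g' s s' : primeLocalGaloisGroup q,
          (show PadicAlgCl (q : ℕ) ≃ₐ[ℚ_[(q : ℕ)]] PadicAlgCl (q : ℕ) from s) ∈ E.fixingSubgroup →
          (show PadicAlgCl (q : ℕ) ≃ₐ[ℚ_[(q : ℕ)]] PadicAlgCl (q : ℕ) from s') ∈ E.fixingSubgroup →
            f (g * s, g' * s') = f (g, g') :=
  isLevelConstant₂_iff (q : ℕ) f

end Fermat.Agent.S55.KrasnerBridge
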