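/-
S55 / G.kummerVS (helper56): the Kummer group `V_S(K)` and its exact size.

`R` a Dedekind domain with fraction field `K`, `S` a set of primes, `p` a natural number.

* `VS K p S : Subgroup Kˣ`  — elements whose valuations outside `S` are divisible by `p`
  (in `FractionalIdeal.count` language; `mem_VS_iff_pDvdVal` translates to `KummerRam.PDvdVal`);
* `pPow K p` — `p`-th powers; `US K S` — `S`-units (`US_eq_unit : US K S = S.unit K`);
* `ClS K S` — the `S`-class group, as (invertible fractional ideals)/(principal · supported on `S`);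
* `phi : V_S →* Cl_S`, `a ↦ [(a)^{1/p}]`, with kernel `(Kˣ)^p · U_S` and image `Cl_S[p]`;
* `relIndex_pPow_VS` : `[V_S : (Kˣ)^p] = [U_S : U_S ∩ (Kˣ)^p] * #Cl_S[p]`;
* number fields, `μ_p ⊆ K`, `S` finite (`relIndex_pPow_VS_numberField`):
  `[V_S : (Kˣ)^p] = p ^ (rank 𝓞ˣ + #S + 1) * #Cl_S[p]`
  (= `h¹(G_{K,S}, μ_p)` in the Poitou–Tate numerology: `r₂ + #S + c` for `K` totally complex).
-/
import Mathlib
import Fermat.Agent.S14.HerbrandFg
import Fermat.Agent.S14.SUnitTheorem
import Fermat.Agent.S55.KummerRam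

set_option autoImplicit false
set_option linter.unusedSectionVars false

open Module IsDedekindDomain nonZeroDivisors FractionalIdeal
open Fermat.Agent.S14.HerbrandPrime Fermat.Agent.S14.HerbrandFg

namespace Fermat.Agent.S55.KummerVS

/-! ### Index of `p`-th powers in a finitely generated abelian group -/

/-- For a finitely generated abelian group `X` and a prime `p`:
`[X : pX] = #X[p] * p ^ rank X`. -/
theorem index_nsmul_range (X : Type*) [AddCommGroup X] [Module.Finite ℤ X] (p : ℕ)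
    [hp : Fact p.Prime] :
    (AddMonoidHom.range (nsmulAddMonoidHom p : X →+ X)).index =
      Nat.card (AddMonoidHom.ker (nsmulAddMonoidHom p : X →+ X)) * p ^ finrank ℤ X := by
  obtain ⟨b, hb, h1, h2, h3⟩ := main_fg (X := X) p (1 : Module.End ℤ X) (one_pow p)
  have hker : LinearMap.ker ((1 : Module.End ℤ X) - 1) = ⊤ := by
    rw [sub_self]; exact LinearMap.ker_zero
  have hfr : finrank ℤ (LinearMap.ker ((1 : Module.End ℤ X) - 1)) = finrank ℤ X := by
    rw [hker]; exact finrank_top ℤ X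
  rw [hfr] at hb h3
  have hb0 : b = 0 := by
    have : (p - 1) * b = 0 := by omega
    rcases Nat.mul_eq_zero.1 this with h | h
    · have := hp.out.two_le; omega
    · exact h
  rw [hb0, pow_zero, mul_one] at h3
  have hD : Dh (1 : Module.End ℤ X) = 0 := by
    ext x; simp [Dh]
  have hN : Nh p (1 : Module.End ℤ X) = (nsmulAddMonoidHom p : X →+ X) := by
    ext x
    simp [Nh, normEnd]
  rw [hD, hN] at h3
  simp only [qa] at h3
  rw [AddMonoidHom.ker_zero, top_inf_eq, top_inf_eq, AddSubgroup.relIndex_top_right,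
    ← AddMonoidHom.range_eq_map] at h3
  rw [h3]
  congr 1
  have : AddSubgroup.map (0 : X →+ X) ⊤ = ⊥ := by
    ext x; simp
  rw [this, AddSubgroup.relIndex_bot_left]


/-- Multiplicative version: `[G : G^p] = #G[p] * p ^ rank G` for a finitely generated commutative
group `G`. -/
theorem index_pow_range (G : Type*) [CommGroup G] [Module.Finite ℤ (Additive G)] (p : ℕ)
    [hp : Fact p.Prime] :
    (powMonoidHom p : G →* G).range.index =
      Nat.card (powMonoidHom p : G →* G).ker * p ^ finrank ℤ (Additive G) := by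
  have h := index_nsmul_range (Additive G) p
  have h1 : (AddMonoidHom.range (nsmulAddMonoidHom p : Additive G →+ Additive G)) =
      Subgroup.toAddSubgroup (powMonoidHom p : G →* G).range := by
    ext x
    constructor
    · rintro ⟨y, rfl⟩
      exact ⟨Additive.toMul y, rfl⟩
    · rintro ⟨y, hy⟩
      exact ⟨Additive.ofMul y, hy⟩
  have h2 : Nat.card (AddMonoidHom.ker (nsmulAddMonoidHom p : Additive G →+ Additive G)) =
      Nat.card (powMonoidHom p : G →* G).ker := by
    apply Nat.card_congr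
    exact
      { toFun := fun x => ⟨Additive.toMul x.1, x.2⟩
        invFun := fun x => ⟨Additive.ofMul x.1, x.2⟩
        left_inv := fun x => rfl
        right_inv := fun x => rfl }
  rw [h1, Subgroup.index_toAddSubgroup, h2] at h
  exact h


/-! ### The general Dedekind-domain statement -/

section Dedekind
variable {R : Type*} [CommRing R] [IsDedekindDomain R] (K : Type*) [Field K] [Algebra R K]
  [IsFractionRing R K] (p : ℕ) (S : Set (HeightOneSpectrum R))

theorem valuation_eq_exp_neg_count (v : HeightOneSpectrum R) {a : K} (ha : a ≠ 0) :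
    v.valuation K a = WithZero.exp (-(count K v (spanSingleton R⁰ a))) := by
  obtain ⟨n, d, hd, rfl⟩ := IsFractionRing.div_surjective (A := R) a
  have hd0 : d ≠ 0 := nonZeroDivisors.ne_zero hd
  have hn0 : n ≠ 0 := by
    rintro rfl
    simp at ha
  have hI : spanSingleton R⁰ (algebraMap R K n / algebraMap R K d) ≠ 0 := by
    rw [spanSingleton_ne_zero_iff]; exact ha
  have h_aJ : spanSingleton R⁰ (algebraMap R K n / algebraMap R K d) =
      spanSingleton R⁰ ((algebraMap R K) d)⁻¹ *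
        ((Ideal.span {n} : Ideal R) : FractionalIdeal R⁰ K) := by
    rw [coeIdeal_span_singleton, spanSingleton_mul_spanSingleton, div_eq_inv_mul]
  rw [count_well_defined K v hI h_aJ, map_div₀, v.valuation_of_algebraMap,
    v.valuation_of_algebraMap, v.intValuation_if_neg hn0, v.intValuation_if_neg hd0,
    ← WithZero.exp_sub]
  congr 1
  ring

theorem units_ne_zero (I : (FractionalIdeal R⁰ K)ˣ) : (I : FractionalIdeal R⁰ K) ≠ 0 :=
  I.ne_zero

/-- Invertible fractional ideals supported on `S`. -/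
def DS : Subgroup (FractionalIdeal R⁰ K)ˣ where
  carrier := {I | ∀ v, v ∉ S → count K v (I : FractionalIdeal R⁰ K) = 0}
  one_mem' := fun v _ => by simp [count_one]
  mul_mem' := by
    intro I J hI hJ v hv
    rw [Units.val_mul, count_mul K v I.ne_zero J.ne_zero, hI v hv, hJ v hv, add_zero]
  inv_mem' := by
    intro I hI v hv
    rw [Units.val_inv_eq_inv_val, count_inv, hI v hv, neg_zero]

/-- `V_S`: elements whose valuations outside `S` are divisible by `p`. -/
def VS : Subgroup Kˣ where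
  carrier := {a | ∀ v, v ∉ S → (p : ℤ) ∣ count K v (spanSingleton R⁰ (a : K))}
  one_mem' := fun v _ => by simp [count_one]
  mul_mem' := by
    intro a b ha hb v hv
    have ha0 : spanSingleton R⁰ (a : K) ≠ 0 := spanSingleton_ne_zero_iff.2 a.ne_zero
    have hb0 : spanSingleton R⁰ (b : K) ≠ 0 := spanSingleton_ne_zero_iff.2 b.ne_zero
    rw [Units.val_mul, ← spanSingleton_mul_spanSingleton, count_mul K v ha0 hb0]
    exact dvd_add (ha v hv) (hb v hv)
  inv_mem' := by
    intro a ha v hv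
    rw [Units.val_inv_eq_inv_val, ← spanSingleton_inv, count_inv]
    exact (dvd_neg).2 (ha v hv)

/-- `S`-units, in `count` language. -/
def US : Subgroup Kˣ := (DS K S).comap (toPrincipalIdeal R K)

theorem mem_US {a : Kˣ} : a ∈ US K S ↔ ∀ v, v ∉ S → count K v (spanSingleton R⁰ (a : K)) = 0 := by
  simp only [US, Subgroup.mem_comap, DS, Subgroup.mem_mk, Submonoid.mem_mk, Subsemigroup.mem_mk,
    Set.mem_ofPred_eq, coe_toPrincipalIdeal]

/-- `p`-th powers. -/
def pPow : Subgroup Kˣ := (powMonoidHom p : Kˣ →* Kˣ).range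

theorem mem_pPow {a : Kˣ} : a ∈ pPow K p ↔ ∃ b : Kˣ, b ^ p = a := by
  simp [pPow, MonoidHom.mem_range]

theorem US_le_VS : US (R := R) K S ≤ VS K p S := by
  intro a ha v hv
  rw [(mem_US K S).1 ha v hv]
  exact dvd_zero _

theorem pPow_le_VS : pPow K p ≤ VS (R := R) K p S := by
  intro a ha v hv
  obtain ⟨b, rfl⟩ := (mem_pPow K p).1 ha
  rw [Units.val_pow_eq_pow_val, ← spanSingleton_pow, count_pow]
  exact dvd_mul_right _ _

/-- `J` is a `p`-th root of the ideal `(a)` away from `S`. -/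
def Rel (a : Kˣ) (J : (FractionalIdeal R⁰ K)ˣ) : Prop :=
  ∀ v, v ∉ S → count K v (spanSingleton R⁰ (a : K)) = (p : ℤ) * count K v (J : FractionalIdeal R⁰ K)

variable {K p S}

theorem Rel.mul {a b : Kˣ} {J J' : (FractionalIdeal R⁰ K)ˣ} (h : Rel K p S a J)
    (h' : Rel K p S b J') : Rel K p S (a * b) (J * J') := by
  intro v hv
  have ha0 : spanSingleton R⁰ (a : K) ≠ 0 := spanSingleton_ne_zero_iff.2 a.ne_zero
  have hb0 : spanSingleton R⁰ (b : K) ≠ 0 := spanSingleton_ne_zero_iff.2 b.ne_zero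
  rw [Units.val_mul, ← spanSingleton_mul_spanSingleton, count_mul K v ha0 hb0, Units.val_mul,
    count_mul K v J.ne_zero J'.ne_zero, h v hv, h' v hv, mul_add]

theorem Rel.div_mem_DS (hp : p ≠ 0) {a : Kˣ} {J J' : (FractionalIdeal R⁰ K)ˣ}
    (h : Rel K p S a J) (h' : Rel K p S a J') : J / J' ∈ DS K S := by
  intro v hv
  have h1 := h v hv
  rw [h' v hv] at h1
  have hp' : (p : ℤ) ≠ 0 := by exact_mod_cast hp
  have h2 := mul_left_cancel₀ hp' h1
  rw [div_eq_mul_inv, Units.val_mul, count_mul K v J.ne_zero (J'⁻¹).ne_zero,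
    Units.val_inv_eq_inv_val, count_inv, h2]
  ring

theorem Rel.mem_VS {a : Kˣ} {J : (FractionalIdeal R⁰ K)ˣ} (h : Rel K p S a J) :
    a ∈ VS K p S := fun v hv => ⟨_, h v hv⟩

theorem exists_rel {a : Kˣ} (ha : a ∈ VS K p S) : ∃ J, Rel K p S a J := by
  classical
  set e : HeightOneSpectrum R → ℤ :=
    fun v => if v ∈ S then 0 else count K v (spanSingleton R⁰ (a : K)) / (p : ℤ) with he
  have hfin : ∀ᶠ v : HeightOneSpectrum R in Filter.cofinite, e v = 0 := by
    have h := finite_factors (K := K) (spanSingleton R⁰ (a : K))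
    refine h.mono ?_
    intro v hv
    simp only [he]
    split_ifs
    · rfl
    · rw [hv]; simp
  set J0 : FractionalIdeal R⁰ K :=
    ∏ᶠ v : HeightOneSpectrum R, (v.asIdeal : FractionalIdeal R⁰ K) ^ e v with hJ0
  have hcount : ∀ v, count K v J0 = e v := fun v => count_finprod K v e hfin
  have hfin' : {v : HeightOneSpectrum R | e v ≠ 0}.Finite := by
    have := hfin
    rw [Filter.eventually_cofinite] at this
    exact this
  have hJ0ne : J0 ≠ 0 := by
    rw [hJ0, finprod_eq_prod_of_mulSupport_subset (s := hfin'.toFinset)]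
    · rw [Finset.prod_ne_zero_iff]
      intro v _
      exact zpow_ne_zero _ (coeIdeal_ne_zero.mpr v.ne_bot)
    · intro v hv
      rw [Set.Finite.coe_toFinset]
      intro h0
      rw [Function.mem_mulSupport] at hv
      apply hv
      rw [h0, zpow_zero]
  refine ⟨Units.mk0 J0 hJ0ne, ?_⟩
  intro v hv
  rw [Units.val_mk0, hcount v]
  simp only [he, if_neg hv]
  exact (Int.mul_ediv_cancel' (ha v hv)).symm

variable (K S) in
/-- Principal ideals times ideals supported on `S`. -/
noncomputable def NS : Subgroup (FractionalIdeal R⁰ K)ˣ := (toPrincipalIdeal R K).range ⊔ DS K S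

variable (K S) in
/-- The `S`-class group `Cl_S = Cl / ⟨S⟩`, as a quotient of the group of invertible fractional
ideals. -/
abbrev ClS : Type _ := (FractionalIdeal R⁰ K)ˣ ⧸ NS K S

theorem DS_le_NS : DS K S ≤ NS K S := le_sup_right

theorem principal_mem_NS (b : Kˣ) : toPrincipalIdeal R K b ∈ NS K S :=
  (le_sup_left : (toPrincipalIdeal R K).range ≤ NS K S) ⟨b, rfl⟩

theorem mem_NS_iff {J : (FractionalIdeal R⁰ K)ˣ} :
    J ∈ NS K S ↔ ∃ b : Kˣ, ∃ E ∈ DS K S, toPrincipalIdeal R K b * E = J := by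
  rw [NS, Subgroup.mem_sup]
  constructor
  · rintro ⟨y, ⟨b, rfl⟩, z, hz, rfl⟩
    exact ⟨b, z, hz, rfl⟩
  · rintro ⟨b, E, hE, rfl⟩
    exact ⟨_, ⟨b, rfl⟩, E, hE, rfl⟩

/-- A chosen `p`-th root ideal of `a ∈ V_S` away from `S`. -/
noncomputable def rootIdeal (a : VS K p S) : (FractionalIdeal R⁰ K)ˣ :=
  Classical.choose (exists_rel a.2)

theorem rootIdeal_spec (a : VS K p S) : Rel K p S (a : Kˣ) (rootIdeal a) :=
  Classical.choose_spec (exists_rel a.2)

theorem mk_eq_mk_of_rel (hp : p ≠ 0) {a : Kˣ} {J J' : (FractionalIdeal R⁰ K)ˣ}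
    (h : Rel K p S a J) (h' : Rel K p S a J') :
    (QuotientGroup.mk J : ClS K S) = QuotientGroup.mk J' := by
  rw [QuotientGroup.eq]
  have := DS_le_NS (h'.div_mem_DS hp h)
  rwa [div_eq_mul_inv, mul_comm] at this

theorem rel_one : Rel K p S (1 : Kˣ) 1 := by
  intro v _
  simp [count_one]

/-- The map `V_S → Cl_S`, `a ↦ [(a)^{1/p}]`. -/
noncomputable def phi (hp : p ≠ 0) : VS K p S →* ClS K S where
  toFun a := QuotientGroup.mk (rootIdeal a)
  map_one' := by
    have h1 : Rel K p S ((1 : VS K p S) : Kˣ) 1 := rel_one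
    rw [mk_eq_mk_of_rel hp (rootIdeal_spec 1) h1]
    rfl
  map_mul' a b := by
    have h1 : Rel K p S ((a * b : VS K p S) : Kˣ) (rootIdeal a * rootIdeal b) :=
      (rootIdeal_spec a).mul (rootIdeal_spec b)
    rw [mk_eq_mk_of_rel hp (rootIdeal_spec (a * b)) h1]
    rfl

theorem phi_eq_of_rel (hp : p ≠ 0) (a : VS K p S) {J : (FractionalIdeal R⁰ K)ˣ}
    (h : Rel K p S (a : Kˣ) J) : phi hp a = QuotientGroup.mk J :=
  mk_eq_mk_of_rel hp (rootIdeal_spec a) h

/-- If `Rel a J` then `J ^ p = (a) * E` with `E` supported on `S`. -/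
theorem Rel.pow_div_mem_DS {a : Kˣ} {J : (FractionalIdeal R⁰ K)ˣ} (h : Rel K p S a J) :
    J ^ p / toPrincipalIdeal R K a ∈ DS K S := by
  intro v hv
  have ha0 : spanSingleton R⁰ (a : K) ≠ 0 := spanSingleton_ne_zero_iff.2 a.ne_zero
  rw [div_eq_mul_inv, Units.val_mul, count_mul K v (J ^ p).ne_zero (toPrincipalIdeal R K a)⁻¹.ne_zero,
    Units.val_inv_eq_inv_val, count_inv, Units.val_pow_eq_pow_val, count_pow, coe_toPrincipalIdeal,
    h v hv]
  ring

theorem phi_pow (hp : p ≠ 0) (a : VS K p S) : phi hp a ^ p = 1 := by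
  show (QuotientGroup.mk (rootIdeal a) : ClS K S) ^ p = 1
  rw [← QuotientGroup.mk_pow, QuotientGroup.eq_one_iff, mem_NS_iff]
  refine ⟨a, _, (rootIdeal_spec a).pow_div_mem_DS, ?_⟩
  rw [mul_div_cancel]

theorem phi_eq_one_iff (hp : p ≠ 0) (a : VS K p S) :
    phi hp a = 1 ↔ (a : Kˣ) ∈ pPow K p ⊔ US K S := by
  constructor
  · intro h
    have h1 : (QuotientGroup.mk (rootIdeal a) : ClS K S) = 1 := h
    rw [QuotientGroup.eq_one_iff, mem_NS_iff] at h1
    obtain ⟨b, E, hE, hbE⟩ := h1
    have hrel := rootIdeal_spec a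
    rw [Subgroup.mem_sup]
    refine ⟨b ^ p, (mem_pPow K p).2 ⟨b, rfl⟩, (b ^ p)⁻¹ * (a : Kˣ), ?_, by group⟩
    rw [mem_US]
    intro v hv
    have ha0 : spanSingleton R⁰ ((a : Kˣ) : K) ≠ 0 := spanSingleton_ne_zero_iff.2 (a : Kˣ).ne_zero
    have hb0 : spanSingleton R⁰ (b : K) ≠ 0 := spanSingleton_ne_zero_iff.2 b.ne_zero
    have hbp0 : spanSingleton R⁰ (((b ^ p)⁻¹ : Kˣ) : K) ≠ 0 :=
      spanSingleton_ne_zero_iff.2 ((b ^ p)⁻¹ : Kˣ).ne_zero
    have h2 := hrel v hv
    rw [← hbE, Units.val_mul, count_mul K v (toPrincipalIdeal R K b).ne_zero E.ne_zero, hE v hv,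
      add_zero, coe_toPrincipalIdeal] at h2
    rw [Units.val_mul, ← spanSingleton_mul_spanSingleton, count_mul K v hbp0 ha0, h2,
      Units.val_inv_eq_inv_val, ← spanSingleton_inv, count_inv, Units.val_pow_eq_pow_val,
      ← spanSingleton_pow, count_pow]
    ring
  · intro h
    rw [Subgroup.mem_sup] at h
    obtain ⟨y, hy, z, hz, hyz⟩ := h
    obtain ⟨b, rfl⟩ := (mem_pPow K p).1 hy
    have hrel : Rel K p S (a : Kˣ) (toPrincipalIdeal R K b) := by
      intro v hv
      have hb0 : spanSingleton R⁰ (((b ^ p : Kˣ)) : K) ≠ 0 :=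
        spanSingleton_ne_zero_iff.2 (b ^ p : Kˣ).ne_zero
      have hz0 : spanSingleton R⁰ (z : K) ≠ 0 := spanSingleton_ne_zero_iff.2 z.ne_zero
      rw [← hyz, Units.val_mul, ← spanSingleton_mul_spanSingleton, count_mul K v hb0 hz0,
        (mem_US K S).1 hz v hv, add_zero, Units.val_pow_eq_pow_val, ← spanSingleton_pow, count_pow,
        coe_toPrincipalIdeal]
    rw [phi_eq_of_rel hp a hrel, QuotientGroup.eq_one_iff]
    exact principal_mem_NS b

theorem exists_phi_eq (hp : p ≠ 0) (x : ClS K S) (hx : x ^ p = 1) :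
    ∃ a : VS K p S, phi hp a = x := by
  obtain ⟨J, rfl⟩ := QuotientGroup.mk_surjective x
  rw [← QuotientGroup.mk_pow, QuotientGroup.eq_one_iff, mem_NS_iff] at hx
  obtain ⟨a, E, hE, haE⟩ := hx
  have hrel : Rel K p S a J := by
    intro v hv
    have h1 : count K v ((J ^ p : (FractionalIdeal R⁰ K)ˣ) : FractionalIdeal R⁰ K) =
        (p : ℤ) * count K v (J : FractionalIdeal R⁰ K) := by
      rw [Units.val_pow_eq_pow_val, count_pow]
    rw [← h1, ← haE, Units.val_mul, count_mul K v (toPrincipalIdeal R K a).ne_zero E.ne_zero,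
      hE v hv, add_zero, coe_toPrincipalIdeal]
  exact ⟨⟨a, hrel.mem_VS⟩, phi_eq_of_rel hp _ hrel⟩

theorem ker_phi (hp : p ≠ 0) :
    (phi (K := K) (S := S) hp).ker = (pPow K p ⊔ US K S).subgroupOf (VS K p S) := by
  ext a
  rw [MonoidHom.mem_ker, phi_eq_one_iff, Subgroup.mem_subgroupOf]

theorem mem_range_phi (hp : p ≠ 0) (x : ClS K S) :
    x ∈ (phi (K := K) (S := S) hp).range ↔ x ^ p = 1 := by
  rw [MonoidHom.mem_range]
  constructor
  · rintro ⟨a, rfl⟩
    exact phi_pow hp a
  · intro hx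
    exact exists_phi_eq hp x hx

variable (K p S) in
/-- **Counting `V_S` (general Dedekind form).**
`[V_S : (Kˣ)^p] = [U_S : U_S ∩ (Kˣ)^p] * #Cl_S[p]`. -/
theorem relIndex_pPow_VS (hp : p ≠ 0) :
    (pPow K p).relIndex (VS K p S) =
      (pPow K p).relIndex (US K S) * Nat.card {x : ClS K S // x ^ p = 1} := by
  have h1 : pPow K p ≤ pPow K p ⊔ US K S := le_sup_left
  have h2 : pPow K p ⊔ US K S ≤ VS K p S := sup_le (pPow_le_VS K p S) (US_le_VS K p S)
  rw [← Subgroup.relIndex_mul_relIndex _ _ _ h1 h2, Subgroup.relIndex_sup_left]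
  congr 1
  rw [Subgroup.relIndex, ← ker_phi hp, Subgroup.index_ker]
  exact Nat.card_congr (Equiv.subtypeEquivRight (mem_range_phi hp))

theorem mem_US_of_pow_mem (hp : p ≠ 0) {b : Kˣ} (h : b ^ p ∈ US K S) : b ∈ US K S := by
  rw [mem_US] at h ⊢
  intro v hv
  have h1 := h v hv
  rw [Units.val_pow_eq_pow_val, ← spanSingleton_pow, count_pow] at h1
  have hp' : (p : ℤ) ≠ 0 := by exact_mod_cast hp
  exact (mul_eq_zero.1 h1).resolve_left hp'

variable (K p S) in
theorem relIndex_pPow_US (hp : p ≠ 0) :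
    (pPow K p).relIndex (US K S) = (powMonoidHom p : US K S →* US K S).range.index := by
  rw [Subgroup.relIndex]
  congr 1
  ext x
  rw [Subgroup.mem_subgroupOf, mem_pPow, MonoidHom.mem_range]
  constructor
  · rintro ⟨b, hb⟩
    have hbU : b ∈ US K S := mem_US_of_pow_mem hp (by rw [hb]; exact x.2)
    exact ⟨⟨b, hbU⟩, Subtype.ext hb⟩
  · rintro ⟨y, rfl⟩
    exact ⟨y, rfl⟩

variable (K S) in
theorem US_eq_unit : US K S = S.unit K := by
  ext a
  rw [mem_US]
  show _ ↔ ∀ (v) (_ : v ∉ S), (v : HeightOneSpectrum R).valuation K (a : K) = 1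
  refine forall₂_congr fun v _ => ?_
  rw [valuation_eq_exp_neg_count K v a.ne_zero, ← WithZero.exp_zero, WithZero.exp_inj, neg_eq_zero]

theorem pDvd_count_iff (v : HeightOneSpectrum R) {a : K} (ha : a ≠ 0) :
    (p : ℤ) ∣ count K v (spanSingleton R⁰ a) ↔
      ∃ m : ℤ, v.valuation K a = WithZero.exp ((p : ℤ) * m) := by
  rw [valuation_eq_exp_neg_count K v ha]
  constructor
  · rintro ⟨m, hm⟩
    exact ⟨-m, by rw [hm, mul_neg]⟩
  · rintro ⟨m, hm⟩
    rw [WithZero.exp_inj] at hm
    exact ⟨-m, by rw [mul_neg, ← hm, neg_neg]⟩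

/-! ### `Cl_S` as a quotient of the class group -/

variable (K S) in
/-- The canonical surjection `Cl(R) → Cl_S`. -/
noncomputable def classGroupToClS : ClassGroup R →* ClS K S :=
  (QuotientGroup.map (toPrincipalIdeal R K).range (NS K S) (MonoidHom.id _)
    (fun _ hx => (le_sup_left : (toPrincipalIdeal R K).range ≤ NS K S) hx)).comp
    (ClassGroup.equiv K).toMonoidHom

theorem classGroupToClS_surjective : Function.Surjective (classGroupToClS (R := R) K S) := by
  intro x
  obtain ⟨J, rfl⟩ := QuotientGroup.mk_surjective x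
  obtain ⟨c, hc⟩ := (ClassGroup.equiv (R := R) K).surjective
    (QuotientGroup.mk J : (FractionalIdeal R⁰ K)ˣ ⧸ (toPrincipalIdeal R K).range)
  refine ⟨c, ?_⟩
  simp only [classGroupToClS, MonoidHom.coe_comp, Function.comp_apply, MulEquiv.coe_toMonoidHom, hc]
  rfl

instance instFiniteClS [Finite (ClassGroup R)] : Finite (ClS (R := R) K S) :=
  Finite.of_surjective _ (classGroupToClS_surjective (R := R) (K := K) (S := S))

theorem classGroupToClS_mk0 (I : (Ideal R)⁰) :
    classGroupToClS K S (ClassGroup.mk0 I) = QuotientGroup.mk (FractionalIdeal.mk0 K I) := by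
  simp only [classGroupToClS, MonoidHom.coe_comp, Function.comp_apply, MulEquiv.coe_toMonoidHom,
    ClassGroup.equiv_mk0]
  rfl

end Dedekind

/-! ### Number fields -/

section NumberFieldCase
open NumberField
variable (K : Type*) [Field K] [NumberField K] (p : ℕ) [hp : Fact p.Prime]
  (S : Finset (HeightOneSpectrum (𝓞 K)))

/-- `[U_S : U_S^p] = p ^ (r + #S + 1)` when `μ_p ⊆ K`. -/
theorem index_pow_unit {ζ : K} (hζ : IsPrimitiveRoot ζ p) :
    (powMonoidHom p : (S : Set (HeightOneSpectrum (𝓞 K))).unit K →*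
        (S : Set (HeightOneSpectrum (𝓞 K))).unit K).range.index =
      p ^ (NumberField.Units.rank K + S.card + 1) := by
  set U := (S : Set (HeightOneSpectrum (𝓞 K))).unit K with hU
  have : Module.Finite ℤ (Additive U) :=
    Fermat.Agent.S14.SUnitTheorem.finite_sUnit_numberField K S
  rw [index_pow_range U p, Fermat.Agent.S14.SUnitTheorem.finrank_sUnit_numberField K S]
  have hker : Nat.card (powMonoidHom p : U →* U).ker = p := by
    have : NeZero p := ⟨hp.out.ne_zero⟩
    refine Eq.trans ?_ hζ.card_rootsOfUnity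
    apply Nat.card_congr
    refine
      { toFun := fun x => ⟨(x.1 : Kˣ), ?_⟩
        invFun := fun x => ⟨⟨(x.1 : Kˣ), ?_⟩, ?_⟩
        left_inv := fun x => rfl
        right_inv := fun x => rfl }
    · rw [mem_rootsOfUnity]
      have h := x.2
      rw [MonoidHom.mem_ker, powMonoidHom_apply] at h
      exact congrArg (fun y : U => (y : Kˣ)) h
    · -- roots of unity are S-units
      intro v _
      have hx : (x.1 : Kˣ) ^ p = 1 := (mem_rootsOfUnity _ _).1 x.2
      have h1 : (v.valuation K ((x.1 : Kˣ) : K)) ^ p = 1 := by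
        rw [← map_pow, ← Units.val_pow_eq_pow_val, hx, Units.val_one, map_one]
      exact (pow_eq_one_iff.1 h1).resolve_right hp.out.ne_zero
    · rw [MonoidHom.mem_ker, powMonoidHom_apply]
      apply Subtype.ext
      exact (mem_rootsOfUnity _ _).1 x.2
  rw [hker]
  ring


/-- **The size of `V_S`** for a number field `K ⊇ μ_p` and a finite set `S` of primes:
`[V_S : (Kˣ)^p] = p ^ (rank 𝓞_Kˣ + #S + 1) * #Cl_S(K)[p]`. -/
theorem relIndex_pPow_VS_numberField {ζ : K} (hζ : IsPrimitiveRoot ζ p) :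
    (pPow K p).relIndex (VS (R := 𝓞 K) K p (S : Set (HeightOneSpectrum (𝓞 K)))) =
      p ^ (NumberField.Units.rank K + S.card + 1) *
        Nat.card {x : ClS (R := 𝓞 K) K (S : Set (HeightOneSpectrum (𝓞 K))) // x ^ p = 1} := by
  rw [relIndex_pPow_VS K p _ hp.out.ne_zero, relIndex_pPow_US K p _ hp.out.ne_zero]
  congr 1
  have h := index_pow_unit K p S hζ
  have hU := US_eq_unit (R := 𝓞 K) K (S : Set (HeightOneSpectrum (𝓞 K)))
  revert h
  rw [← hU]
  exact id

/-- `V_S / (Kˣ)^p` is finite. -/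
theorem relIndex_pPow_VS_ne_zero {ζ : K} (hζ : IsPrimitiveRoot ζ p) :
    (pPow K p).relIndex (VS (R := 𝓞 K) K p (S : Set (HeightOneSpectrum (𝓞 K)))) ≠ 0 := by
  rw [relIndex_pPow_VS_numberField K p S hζ]
  refine mul_ne_zero (pow_ne_zero _ hp.out.ne_zero) ?_
  have : Nonempty {x : ClS (R := 𝓞 K) K (S : Set (HeightOneSpectrum (𝓞 K))) // x ^ p = 1} :=
    ⟨⟨1, one_pow p⟩⟩
  exact Nat.card_pos.ne'

/-- Membership in `V_S` in the vocabulary of `KummerRam`. -/
theorem mem_VS_iff_pDvdVal (a : Kˣ) :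
    a ∈ VS (R := 𝓞 K) K p (S : Set (HeightOneSpectrum (𝓞 K))) ↔
      ∀ v : HeightOneSpectrum (𝓞 K), v ∉ S → KummerRam.PDvdVal p v (a : K) := by
  refine forall₂_congr fun v _ => ?_
  exact pDvd_count_iff v a.ne_zero

end NumberFieldCase

end Fermat.Agent.S55.KummerVS
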