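/-
S55 / formal end (helper60): the "Sylow level" used by the unipotent dévissage.

For a normal subgroup `N` of finite index in `Γ` (think: `N = ker ρ_M ∩ ker χ_p`, i.e. the open
subgroup `Gal(ℚ̄/ℚ(M, μ_p))`) there is a subgroup `U ⊇ N` with `[Γ : U]` prime to `p` and `U/N` a
`p`-group (the preimage of a Sylow `p`-subgroup of `Γ/N`).  Consequences:

* `char_eq_one`: every character `χ : Γ → (ZMod p)ˣ` trivial on `N` is trivial on `U`
  (so `U ≤ ker χ_p` AUTOMATICALLY: the "invariants step (3c)" of the dévissage is vacuous);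
* `isPPower_res`: every mod-`p` representation of `Γ` trivial on `N` restricts to a
  representation of `U` on which every element acts with `p`-power order (`Unipotent.IsPPower`),
  hence is unipotent (`Unipotent.induction_on` applies).

Mathlib + `S55/Unipotent` only.
-/
import Mathlib
import Fermat.Agent.S55.Unipotent

set_option autoImplicit false
set_option linter.style.haveILetI false

namespace Fermat.Agent.S55.SylowLevel

open Fermat.Agent.S55.Unipotent

/-- The preimage `U` of a Sylow `p`-subgroup of `Γ/N`: contains `N`, has finite index prime to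
`p`, and every element of `U` has a `p`-power power in `N`. -/
theorem exists_level {Γ : Type*} [Group Γ] (p : ℕ) [Fact p.Prime] (N : Subgroup Γ) [N.Normal]
    [N.FiniteIndex] :
    ∃ U : Subgroup Γ, N ≤ U ∧ U.index ≠ 0 ∧ ¬ p ∣ U.index ∧
      ∀ u ∈ U, ∃ k : ℕ, u ^ (p ^ k) ∈ N := by
  classical
  haveI : Finite (Γ ⧸ N) := Subgroup.finite_quotient_of_finiteIndex
  obtain ⟨P⟩ : Nonempty (Sylow p (Γ ⧸ N)) := inferInstance
  refine ⟨(P : Subgroup (Γ ⧸ N)).comap (QuotientGroup.mk' N), ?_, ?_, ?_, ?_⟩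
  · intro n hn
    rw [Subgroup.mem_comap]
    have : QuotientGroup.mk' N n = 1 := (QuotientGroup.eq_one_iff n).mpr hn
    rw [this]
    exact Subgroup.one_mem _
  · rw [Subgroup.index_comap_of_surjective _ (QuotientGroup.mk'_surjective N)]
    exact Subgroup.FiniteIndex.index_ne_zero
  · rw [Subgroup.index_comap_of_surjective _ (QuotientGroup.mk'_surjective N)]
    exact P.not_dvd_index
  · intro u hu
    rw [Subgroup.mem_comap] at hu
    obtain ⟨k, hk⟩ := P.isPGroup' ⟨_, hu⟩
    refine ⟨k, ?_⟩
    have h1 : (QuotientGroup.mk' N u) ^ (p ^ k) = 1 := by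
      have := congrArg Subtype.val hk
      simpa using this
    rw [← map_pow] at h1
    exact (QuotientGroup.eq_one_iff _).mp h1

/-- A character with values in `(ZMod p)ˣ` kills every element with a `p`-power power in its
kernel. -/
theorem char_eq_one {Γ : Type*} [Group Γ] {p : ℕ} [Fact p.Prime] (χ : Γ →* (ZMod p)ˣ) {u : Γ}
    {k : ℕ} (hu : χ (u ^ (p ^ k)) = 1) : χ u = 1 := by
  have h1 : (χ u) ^ (p ^ k) = 1 := by rw [← map_pow]; exact hu
  have h2 : (χ u) ^ (p - 1) = 1 := ZMod.units_pow_card_sub_one_eq_one p (χ u)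
  have hcop : Nat.Coprime (p ^ k) (p - 1) := by
    apply Nat.Coprime.pow_left
    have hp : p.Prime := Fact.out
    rw [Nat.coprime_comm]
    apply Nat.Coprime.symm
    rw [Nat.Prime.coprime_iff_not_dvd hp]
    intro h
    have := Nat.le_of_dvd (Nat.sub_pos_of_lt hp.one_lt) h
    have := hp.one_lt
    omega
  have hd1 := orderOf_dvd_of_pow_eq_one h1
  have hd2 := orderOf_dvd_of_pow_eq_one h2
  have : orderOf (χ u) = 1 := Nat.eq_one_of_dvd_coprimes hcop hd1 hd2
  exact orderOf_eq_one_iff.mp this

/-- A character with values in `(ZMod p)ˣ` which is trivial on `N` is trivial on the Sylow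
level `U`. -/
theorem char_eq_one_of_level {Γ : Type*} [Group Γ] {p : ℕ} [Fact p.Prime] (χ : Γ →* (ZMod p)ˣ)
    {N U : Subgroup Γ} (hN : N ≤ χ.ker) (hU : ∀ u ∈ U, ∃ k : ℕ, u ^ (p ^ k) ∈ N) :
    U ≤ χ.ker := by
  intro u hu
  obtain ⟨k, hk⟩ := hU u hu
  exact MonoidHom.mem_ker.mpr (char_eq_one χ (MonoidHom.mem_ker.mp (hN hk)))

/-- A mod-`p` representation of `Γ` trivial on `N` restricts to a representation of the Sylow
level `U` in which every element acts with `p`-power order. -/
theorem isPPower_res {Γ : Type*} [Group Γ] {p : ℕ} [Fact p.Prime] {V : Type*} [AddCommGroup V]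
    [Module (ZMod p) V] (ρ : Representation (ZMod p) Γ V) {N U : Subgroup Γ}
    (hN : ∀ n ∈ N, ρ n = 1) (hU : ∀ u ∈ U, ∃ k : ℕ, u ^ (p ^ k) ∈ N) :
    IsPPower (p := p) (ρ.comp U.subtype) := by
  intro u
  obtain ⟨k, hk⟩ := hU u u.2
  refine ⟨k, ?_⟩
  have := hN _ hk
  rw [map_pow] at this
  simpa using this

end Fermat.Agent.S55.SylowLevel
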