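/-
S55 (Poitou–Tate Ш¹–Ш² duality) — top reduction [helper76, formal end].

The frozen statement asks for SOME two-sided nondegenerate pairing
`sha₁ S M' × sha₂ S M → 𝔽_p`.  Over a field this is equivalent to: both spaces are
finite-dimensional of the same dimension.  `result_of_finrank` is that reduction.
-/
import Mathlib
import Fermat.Prelude.Def_GroupCohomology_ContinuousUnramified

set_option autoImplicit false

open CategoryTheory Module groupCohomology ExtCitation

namespace Fermat.Agent.S55.Top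

/-- Generic linear algebra: two finite-dimensional spaces of equal dimension carry a two-sided
nondegenerate pairing. -/
theorem exists_pairing_of_finrank_eq {k V W : Type*} [Field k] [AddCommGroup V] [Module k V]
    [AddCommGroup W] [Module k W] [FiniteDimensional k V] [FiniteDimensional k W]
    (h : finrank k V = finrank k W) :
    ∃ B : V →ₗ[k] W →ₗ[k] k,
      (∀ y, (∀ x, B y x = 0) → y = 0) ∧ (∀ x, (∀ y, B y x = 0) → x = 0) := by
  have h' : finrank k V = finrank k (Module.Dual k W) := by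
    rw [h, Subspace.dual_finrank_eq]
  obtain ⟨e⟩ := FiniteDimensional.nonempty_linearEquiv_of_finrank_eq h'
  refine ⟨e.toLinearMap, ?_, ?_⟩
  · intro y hy
    have : e y = 0 := LinearMap.ext hy
    exact e.map_eq_zero_iff.mp this
  · intro x hx
    by_contra hx0
    obtain ⟨f, hf⟩ : ∃ f : Module.Dual k W, f x ≠ 0 := by
      by_contra hcon
      simp only [not_exists, not_not] at hcon
      exact hx0 ((Module.forall_dual_apply_eq_zero_iff k x).mp hcon)
    obtain ⟨y, rfl⟩ := e.surjective f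
    exact hf (hx y)

/-- The numerical form of Poitou–Tate that the rest of the S55 tree proves. -/
def ShaFinrankStatement : Prop :=
  ∀ {p : ℕ} [Fact p.Prime] (_hp2 : p ≠ 2) (S : Finset Nat.Primes) (_hpS : pPrime p ∈ S)
    (M : Rep (ZMod p) (AlgebraicClosure ℚ ≃ₐ[ℚ] AlgebraicClosure ℚ))
    [FiniteDimensional (ZMod p) M]
    (_hsm : ∀ m : M, ∃ F : IntermediateField ℚ (AlgebraicClosure ℚ), FiniteDimensional ℚ F ∧
      ∀ s ∈ F.fixingSubgroup, M.ρ s m = m)
    (_hMur : ∀ q : Nat.Primes, q ∉ S → ∀ A : ValuationSubring (AlgebraicClosure ℚ),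
      A.LiesOverPrime (q : ℕ) → ∀ g ∈ A.inertiaSubgroupIn ℚ, M.ρ g = 1),
    FiniteDimensional (ZMod p) ↥(sha₁ S (M.dualTwist (cycloChar p))) ∧
    FiniteDimensional (ZMod p) ↥(sha₂ S M) ∧
    finrank (ZMod p) ↥(sha₁ S (M.dualTwist (cycloChar p))) = finrank (ZMod p) ↥(sha₂ S M)

/-- Frozen S55 from the numerical statement. -/
theorem result_of_finrank (h : ShaFinrankStatement)
    {p : ℕ} [Fact p.Prime] (hp2 : p ≠ 2) (S : Finset Nat.Primes) (hpS : pPrime p ∈ S)
    (M : Rep (ZMod p) (AlgebraicClosure ℚ ≃ₐ[ℚ] AlgebraicClosure ℚ))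
    [FiniteDimensional (ZMod p) M]
    (hsm : ∀ m : M, ∃ F : IntermediateField ℚ (AlgebraicClosure ℚ), FiniteDimensional ℚ F ∧
      ∀ s ∈ F.fixingSubgroup, M.ρ s m = m)
    (hMur : ∀ q : Nat.Primes, q ∉ S → ∀ A : ValuationSubring (AlgebraicClosure ℚ),
      A.LiesOverPrime (q : ℕ) → ∀ g ∈ A.inertiaSubgroupIn ℚ, M.ρ g = 1) :
    ∃ B : sha₁ S (M.dualTwist (cycloChar p)) →ₗ[ZMod p] sha₂ S M →ₗ[ZMod p] ZMod p,
      (∀ y, (∀ x, B y x = 0) → y = 0) ∧ (∀ x, (∀ y, B y x = 0) → x = 0) := by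
  obtain ⟨h1, h2, h3⟩ := h hp2 S hpS M hsm hMur
  exact exists_pairing_of_finrank_eq h3

end Fermat.Agent.S55.Top
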